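import Fermat.Agent.S40.Reg.LogHecke

/-!
# S40 / S44, block (REG), (C2): a multiplicative Hecke relation gives an additive eigen-relation
for the logarithmic derivative
-/

set_option autoImplicit false
set_option synthInstance.maxHeartbeats 400000

open ModularCurve

namespace Fermat.Agent.S40Lib

open Fermat.Agent.S18Lib Fermat.Agent.S28Lib Fermat.Agent.ESLib Fermat.Agent.FFLib

noncomputable section

theorem C2_thetaFun_pow_char {k : Type*} [Field k] (p : ℕ) [CharP k p] (g : LaurentSeries k) :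
    thetaFun (g ^ p) = 0 := by
  haveI : CharP (LaurentSeries k) p :=
    charP_of_injective_ringHom (f := (HahnSeries.C : k →+* LaurentSeries k))
      HahnSeries.C_injective p
  have h := (Fermat.Agent.S18Lib.thetaD k).leibniz_pow g p
  rw [nsmul_eq_mul, CharP.cast_eq_zero, zero_mul] at h
  exact h

theorem C2_thetaFun_zpow {k : Type*} [Field k] (f : LaurentSeries k) (hf : f ≠ 0) (n : ℤ) :
    thetaFun (f ^ n) = HahnSeries.C (n : k) * (f ^ n * (thetaFun f / f)) := by
  have h := (Fermat.Agent.S18Lib.thetaD k).leibniz_zpow f n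
  rw [C1_thetaD_eq, C1_thetaD_eq, zsmul_eq_mul, smul_eq_mul] at h
  rw [h, zpow_sub_one₀ hf, map_intCast]
  field_simp

/-- (C2) `Reg/LogEig.lean` -/
theorem heckeAddS_dlog {k : Type*} [Field k] [IsAlgClosed k] (p : ℕ) [Fact p.Prime] [CharP k p]
    (ℓ : ℕ) [NeZero ℓ] (hℓ : (ℓ : k) ≠ 0) (f g : LaurentSeries k) (hf : f ≠ 0) (c : k) (a n : ℤ)
    (hn : (p : ℤ) ∣ n - a) (h : heckeMul ℓ f = HahnSeries.C c * g ^ p * f ^ n) :
    heckeAddS ℓ (thetaFun f / f) = HahnSeries.C (a : k) * (thetaFun f / f) := by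
  obtain ⟨h0, h1⟩ := thetaFun_heckeMul ℓ hℓ f hf
  have hna : (n : k) = (a : k) := by
    have := (CharP.intCast_eq_zero_iff k p (n - a)).2 hn
    rw [Int.cast_sub, sub_eq_zero] at this
    exact this
  have h2 : thetaFun (heckeMul ℓ f) = heckeMul ℓ f * (HahnSeries.C (a : k) * (thetaFun f / f)) := by
    rw [h, thetaFun_mul, thetaFun_mul, thetaFun_C, C2_thetaFun_pow_char, C2_thetaFun_zpow f hf n,
      hna]
    ring
  rw [h1] at h2
  exact mul_left_cancel₀ h0 h2

end

end Fermat.Agent.S40Lib
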