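import Mathlib

/-!
# S40 / S44, block (REG), (C6): a common eigenvector of a generating set gives a character
-/

set_option autoImplicit false

namespace Fermat.Agent.S40Lib

open Matrix in
/-- (C6) `Reg/CharEig.lean` a common eigenvector of a generating set gives a character -/
theorem exists_char_of_eigenvector {T : Type*} [CommRing T] {r : ℕ}
    (Θ : T →+* Matrix (Fin r) (Fin r) ℤ) {k : Type*} [Field k] (c : Fin r → k) (hc : c ≠ 0)
    (G : Set T) (hG : Subring.closure G = ⊤) (a : T → k)
    (h : ∀ t ∈ G, Matrix.mulVec ((Θ t).map (Int.castRingHom k)) c = a t • c) :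
    ∃ χ : T →+* k, ∀ t ∈ G, χ t = a t := by
  classical
  obtain ⟨i, hi⟩ : ∃ i, c i ≠ 0 := by
    by_contra hcon
    push Not at hcon
    exact hc (funext hcon)
  set ρ : T →+* Matrix (Fin r) (Fin r) k := (Int.castRingHom k).mapMatrix.comp Θ with hρ
  have hρa : ∀ t, ρ t = (Θ t).map (Int.castRingHom k) := fun t => rfl
  have hall : ∀ t : T, ∃ l : k, ρ t *ᵥ c = l • c := by
    intro t
    have ht : t ∈ Subring.closure G := hG ▸ Subring.mem_top t
    induction ht using Subring.closure_induction with
    | mem x hx => exact ⟨a x, h x hx⟩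
    | zero => exact ⟨0, by simp⟩
    | one => exact ⟨1, by simp⟩
    | add x y _ _ hx hy =>
      obtain ⟨l, hl⟩ := hx
      obtain ⟨m, hm⟩ := hy
      exact ⟨l + m, by rw [map_add, Matrix.add_mulVec, hl, hm, add_smul]⟩
    | neg x _ hx =>
      obtain ⟨l, hl⟩ := hx
      exact ⟨-l, by rw [map_neg, Matrix.neg_mulVec, hl, neg_smul]⟩
    | mul x y _ _ hx hy =>
      obtain ⟨l, hl⟩ := hx
      obtain ⟨m, hm⟩ := hy
      exact ⟨l * m, by
        rw [map_mul, ← Matrix.mulVec_mulVec, hm, Matrix.mulVec_smul, hl, smul_smul, mul_comm]⟩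
  choose χ hχ using hall
  have huniq : ∀ l m : k, l • c = m • c → l = m := by
    intro l m hlm
    have := congrFun hlm i
    simp only [Pi.smul_apply, smul_eq_mul] at this
    exact mul_right_cancel₀ hi this
  refine ⟨{ toFun := χ, map_one' := ?_, map_mul' := ?_, map_zero' := ?_, map_add' := ?_ },
    fun t ht => huniq _ _ (by
      show χ t • c = a t • c
      rw [← hχ, hρa, h t ht])⟩
  · apply huniq
    rw [← hχ, map_one, Matrix.one_mulVec, one_smul]
  · intro x y
    apply huniq
    rw [← hχ, map_mul, ← Matrix.mulVec_mulVec, hχ y, Matrix.mulVec_smul, hχ x, smul_smul, mul_comm]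
  · apply huniq
    rw [← hχ, map_zero, Matrix.zero_mulVec, zero_smul]
  · intro x y
    apply huniq
    rw [← hχ, map_add, Matrix.add_mulVec, hχ x, hχ y, add_smul]

end Fermat.Agent.S40Lib
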