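import Fermat.Prelude.Def_CuspForm_HeckeAlgebra

/-!
# S40 / S44, block (REG), (C7): the Hecke algebra away from `S ⊇ {q ∣ M}` is generated by the `T_ℓ`
-/

set_option autoImplicit false
set_option synthInstance.maxHeartbeats 400000

open CuspForm

namespace Fermat.Agent.S40Lib

variable (M : ℕ) [NeZero M]

/-- (C7) `Reg/HeckeGen.lean` -/
theorem heckeAlgebra_closure (S : Set ℕ) (hS : ∀ q : ℕ, q.Prime → q ∣ M → q ∈ S) :
    Subring.closure {t : heckeAlgebra M 2 S | ∃ (ℓ : ℕ) (hℓ : ℓ.Prime) (hℓM : ¬ ℓ ∣ M)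
      (hℓS : ℓ ∉ S), t = heckeAlgebra.T hℓ hℓM hℓS} = ⊤ := by
  rw [eq_top_iff]
  rintro ⟨t, ht⟩ -
  induction ht using Algebra.adjoin_induction with
  | mem x hx =>
    rcases hx with ⟨ℓ, hℓ, hℓN, hℓS, rfl⟩ | ⟨q, hqN, hq, hqS, rfl⟩
    · exact Subring.subset_closure ⟨ℓ, hℓ, hℓN, hℓS, rfl⟩
    · exact absurd (hS q hq hqN) hqS
  | algebraMap r =>
    have h1 : (⟨algebraMap ℤ _ r, Subalgebra.algebraMap_mem _ r⟩ : heckeAlgebra M 2 S)
        = ((r : ℤ) : heckeAlgebra M 2 S) := by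
      apply Subtype.ext
      simp
    exact h1 ▸ intCast_mem _ r
  | add x y hx hy h1 h2 => exact add_mem h1 h2
  | mul x y hx hy h1 h2 => exact mul_mem h1 h2

end Fermat.Agent.S40Lib
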