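import Fermat.Agent.S33.YFormal
import Fermat.Agent.Lib.FF.ThetaD

/-!
# S40 / S44, block (REG), (C1): the logarithmic derivative of `heckeMul ℓ f`
-/

set_option autoImplicit false
set_option synthInstance.maxHeartbeats 400000

open ModularCurve

namespace Fermat.Agent.S40Lib

open Fermat.Agent.S18Lib Fermat.Agent.S28Lib Fermat.Agent.ESLib Fermat.Agent.FFLib

noncomputable section

/-- the additive Hecke operator of weight `2` on `q`-series: `φ ↦ U_ℓ φ + ℓ V_ℓ φ` -/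
def heckeAddS {R : Type*} [CommRing R] (ℓ : ℕ) [NeZero ℓ] (φ : LaurentSeries R) :
    LaurentSeries R :=
  contract ℓ φ + HahnSeries.C (ℓ : R) * qExpand R ℓ φ

theorem C1_thetaD_eq {R : Type*} [CommRing R] (f : LaurentSeries R) :
    Fermat.Agent.S18Lib.thetaD R f = thetaFun f := rfl

/-- `∑_{z ∈ μ_ℓ} z ^ n` -/
theorem C1_sum_zpow {k : Type*} [Field k] (ℓ : ℕ) [NeZero ℓ] (hζ : ∃ ζ : k, IsPrimitiveRoot ζ ℓ)
    (n : ℤ) :
    haveI : Fintype (rootsOfUnity ℓ k) := Fintype.ofFinite _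
    ∑ z : rootsOfUnity ℓ k, (((z : kˣ) ^ n : kˣ) : k) = if (ℓ : ℤ) ∣ n then (ℓ : k) else 0 := by
  let _ : Fintype (rootsOfUnity ℓ k) := Fintype.ofFinite _
  obtain ⟨ζ, hζ⟩ := hζ
  split_ifs with hn
  · obtain ⟨m, rfl⟩ := hn
    have h1 : ∀ z : rootsOfUnity ℓ k, (((z : kˣ) ^ ((ℓ : ℤ) * m) : kˣ) : k) = 1 := by
      intro z
      have hz := z.2
      rw [mem_rootsOfUnity] at hz
      rw [zpow_mul, zpow_natCast, hz, one_zpow, Units.val_one]
    simp only [h1, Finset.sum_const, Finset.card_univ, nsmul_eq_mul, mul_one]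
    rw [← Nat.card_eq_fintype_card, hζ.card_rootsOfUnity]
  · have hu : IsUnit ζ := hζ.isUnit (NeZero.ne ℓ)
    obtain ⟨u, hu'⟩ := hu
    have hup : IsPrimitiveRoot u ℓ := by
      rw [← IsPrimitiveRoot.coe_units_iff, hu']
      exact hζ
    have hmem : u ∈ rootsOfUnity ℓ k := by
      rw [mem_rootsOfUnity]
      exact hup.pow_eq_one
    set w : rootsOfUnity ℓ k := ⟨u, hmem⟩ with hw
    set S := ∑ z : rootsOfUnity ℓ k, (((z : kˣ) ^ n : kˣ) : k) with hS
    have h1 : ((u ^ n : kˣ) : k) * S = S := by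
      rw [hS, Finset.mul_sum]
      refine Fintype.sum_equiv (Equiv.mulLeft w) _ _ fun z => ?_
      rw [← Units.val_mul, ← mul_zpow]
      rfl
    have h2 : ((u ^ n : kˣ) : k) ≠ 1 := by
      intro h
      apply hn
      rw [← hup.zpow_eq_one_iff_dvd]
      exact Units.ext h
    have h3 : (((u ^ n : kˣ) : k) - 1) * S = 0 := by rw [sub_mul, h1, one_mul, sub_self]
    rcases mul_eq_zero.mp h3 with h4 | h4
    · exact absurd (sub_eq_zero.mp h4) h2
    · exact h4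

/-- `∑_{z ∈ μ_ℓ} b(z q) = ℓ · V (contract b)` -/
theorem C1_sum_twist {k : Type*} [Field k] (ℓ : ℕ) [NeZero ℓ] (hζ : ∃ ζ : k, IsPrimitiveRoot ζ ℓ)
    (b : LaurentSeries k) :
    haveI : Fintype (rootsOfUnity ℓ k) := Fintype.ofFinite _
    ∑ z : rootsOfUnity ℓ k, twist (z : kˣ) b
      = HahnSeries.C (ℓ : k) * qExpand k ℓ (contract ℓ b) := by
  let _ : Fintype (rootsOfUnity ℓ k) := Fintype.ofFinite _
  ext n
  rw [HahnSeries.coeff_sum, HahnSeries.C_mul_eq_smul, HahnSeries.coeff_smul, smul_eq_mul]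
  simp only [twist_coeff]
  rw [← Finset.sum_mul]
  have := C1_sum_zpow ℓ hζ n
  rw [this]
  split_ifs with hn
  · obtain ⟨m, rfl⟩ := hn
    rw [qExpand_coeff_mul, contract_coeff]
  · rw [qExpand_coeff_of_not_dvd ℓ _ hn, mul_zero, zero_mul]

/-- logarithmic derivative of `normL ℓ h` -/
theorem C1_thetaD_normL {k : Type*} [Field k] (ℓ : ℕ) [NeZero ℓ]
    (hζ : ∃ ζ : k, IsPrimitiveRoot ζ ℓ) (hℓ : (ℓ : k) ≠ 0) (h : LaurentSeries k) (hh : h ≠ 0) :
    Fermat.Agent.S18Lib.thetaD k (normL ℓ h)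
      = normL ℓ h * contract ℓ (Fermat.Agent.S18Lib.thetaD k h / h) := by
  let _ : Fintype (rootsOfUnity ℓ k) := Fintype.ofFinite _
  have hp0 : (HahnSeries.C (ℓ : k) : LaurentSeries k) ≠ 0 := by
    intro h0
    exact hℓ (HahnSeries.C_injective (by rw [h0, map_zero]))
  apply qExpand_injective (R := k) ℓ
  apply mul_left_cancel₀ hp0
  rw [← thetaD_qExpand, map_mul, qExpand_normL ℓ hζ]
  have htw : ∀ z : rootsOfUnity ℓ k, twist (z : kˣ) h ≠ 0 := by
    intro z h0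
    apply hh
    have : twistHom (z : kˣ) h = 0 := h0
    exact (map_eq_zero _).mp this
  have e1 : Fermat.Agent.S18Lib.thetaD k (prodTwist ℓ h) = prodTwist ℓ h *
      ∑ z : rootsOfUnity ℓ k, twist (z : kˣ) (Fermat.Agent.S18Lib.thetaD k h / h) := by
    have e2 : prodTwist ℓ h = ∏ z : rootsOfUnity ℓ k, twist (z : kˣ) h := by
      unfold prodTwist
      congr!
    rw [e2, Fermat.Agent.S33Lib.YF_logDeriv_prod Finset.univ _ (fun z _ => htw z)]
    congr 1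
    refine Finset.sum_congr rfl fun z _ => ?_
    rw [Fermat.Agent.S33Lib.YF_thetaD_twist]
    exact (map_div₀ (twistHom (z : kˣ)) (Fermat.Agent.S18Lib.thetaD k h) h).symm
  have e3 := C1_sum_twist ℓ hζ (Fermat.Agent.S18Lib.thetaD k h / h)
  rw [e1]
  have e4 : ∑ z : rootsOfUnity ℓ k, twist (z : kˣ) (Fermat.Agent.S18Lib.thetaD k h / h)
      = HahnSeries.C (ℓ : k) * qExpand k ℓ (contract ℓ (Fermat.Agent.S18Lib.thetaD k h / h)) := by
    rw [← e3]
  rw [e4]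
  ring

theorem C1_exists_prim {k : Type*} [Field k] [IsAlgClosed k] (ℓ : ℕ) [NeZero ℓ]
    (hℓ : (ℓ : k) ≠ 0) : ∃ ζ : k, IsPrimitiveRoot ζ ℓ := by
  haveI : NeZero ((ℓ : ℕ) : k) := ⟨hℓ⟩
  exact HasEnoughRootsOfUnity.exists_primitiveRoot k ℓ

theorem C1_heckeMul_ne_zero {K : Type*} [Field K] {ℓ : ℕ} [NeZero ℓ]
    (hζ : ∃ ζ : K, IsPrimitiveRoot ζ ℓ)
    {f : LaurentSeries K} (hf : f ≠ 0) : qExpand K ℓ f ≠ 0 ∧ normL ℓ f ≠ 0 := by
  refine ⟨?_, ?_⟩
  · intro h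
    apply hf
    apply qExpand_injective (R := K) ℓ
    rw [h, map_zero]
  · intro h
    have h1 := qExpand_normL ℓ hζ f
    rw [h, map_zero] at h1
    unfold prodTwist at h1
    letI : Fintype (rootsOfUnity ℓ K) := Fintype.ofFinite _
    have h2 := Finset.prod_eq_zero_iff.1 h1.symm
    obtain ⟨z, _, hz⟩ := h2
    apply hf
    have h3 := twist_support (z : Kˣ) f
    rw [hz] at h3
    rw [← HahnSeries.support_eq_empty_iff, ← h3]
    simp

/-- (C1) `Reg/LogHecke.lean` logarithmic derivative of `heckeMul` (copy of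
`S33Lib.thetaD_normL`, over any algebraically closed field in which `ℓ ≠ 0`) -/
theorem thetaFun_heckeMul {k : Type*} [Field k] [IsAlgClosed k] (ℓ : ℕ) [NeZero ℓ]
    (hℓ : (ℓ : k) ≠ 0) (f : LaurentSeries k) (hf : f ≠ 0) :
    heckeMul ℓ f ≠ 0 ∧
    thetaFun (heckeMul ℓ f) = heckeMul ℓ f * heckeAddS ℓ (thetaFun f / f) := by
  have hζ := C1_exists_prim (k := k) ℓ hℓ
  obtain ⟨hV, hN⟩ := C1_heckeMul_ne_zero hζ hf
  refine ⟨mul_ne_zero hV hN, ?_⟩
  have h1 := C1_thetaD_normL ℓ hζ hℓ f hf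
  have h2 := thetaD_qExpand (R := k) ℓ f
  rw [C1_thetaD_eq, C1_thetaD_eq] at h1 h2
  unfold heckeMul heckeAddS
  rw [thetaFun_mul, h1, h2, map_div₀]
  field_simp

end

end Fermat.Agent.S40Lib
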