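import Fermat.Agent.S40.Reg.LatSer
import Fermat.Agent.S40.Reg.LogHecke
import Fermat.Prelude.Def_CuspForm_HeckeLocal

/-!
# S40 / S44, block (REG), (C4): `T_ℓ` on the `q`-expansions of lattice elements
-/

set_option autoImplicit false
set_option synthInstance.maxHeartbeats 400000
set_option linter.unusedSectionVars false

open UpperHalfPlane AlgebraicCurve IntermediateField Polynomial ModularCurve CongruenceSubgroup CuspForm
  ModularFormClass

namespace Fermat.Agent.S40Lib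

open Fermat.Agent.S18Lib Fermat.Agent.S24Lib Fermat.Agent.S28Lib Fermat.Agent.ESLib
  Fermat.Agent.S34Lib Fermat.Agent.FFLib

noncomputable section

section Ser

variable (M : ℕ) [NeZero M]

/-- the integral coefficients of `T_ℓ e` -/
theorem coeff_latSer_hecke (S : Set ℕ) {ℓ : ℕ} (hℓ : ℓ.Prime)
    (hℓM : ¬ ℓ ∣ M) (hℓS : ℓ ∉ S) (e : intLattice M 2) (n : ℕ) :
    (latSer M (latticeActionHom M S (heckeAlgebra.T hℓ hℓM hℓS) e)).coeff n =
      (latSer M e).coeff (ℓ * n) +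
        (ℓ : ℤ) * (if ℓ ∣ n then (latSer M e).coeff (n / ℓ) else 0) := by
  have h1 := coeff_latSer M (latticeActionHom M S (heckeAlgebra.T hℓ hℓM hℓS) e) n
  have h2 : ((latticeActionHom M S (heckeAlgebra.T hℓ hℓM hℓS) e : intLattice M 2) :
      CuspForm (Gamma0 M) 2) = heckeTLin 2 hℓ hℓM (e : CuspForm (Gamma0 M) 2) := rfl
  rw [h2, Fermat.Agent.S49Lib.qCoeff_heckeTLin hℓ hℓM, ← coeff_latSer] at h1
  split_ifs at h1 ⊢ with hd
  · rw [← coeff_latSer] at h1
    exact_mod_cast h1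
  · exact_mod_cast h1

/-- (C4) `Reg/LatHecke.lean` `T_ℓ` on `q`-expansions -/
theorem serR_hecke (R : Type*) [CommRing R] (S : Set ℕ) {ℓ : ℕ} [NeZero ℓ] (hℓ : ℓ.Prime)
    (hℓM : ¬ ℓ ∣ M) (hℓS : ℓ ∉ S) (e : intLattice M 2) :
    serR M R (latticeActionHom M S (heckeAlgebra.T hℓ hℓM hℓS) e) =
      heckeAddS ℓ (serR M R e) := by
  have hℓ0 : (0 : ℤ) < ℓ := by exact_mod_cast hℓ.pos
  ext n
  unfold heckeAddS
  rw [HahnSeries.coeff_add, contract_coeff, HahnSeries.C_mul_eq_smul, HahnSeries.coeff_smul,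
    smul_eq_mul]
  rcases lt_or_ge n 0 with hn | hn
  · rw [coeff_serR_neg M R _ hn, coeff_serR_neg M R e (by nlinarith : (ℓ : ℤ) * n < 0), zero_add]
    by_cases hd : (ℓ : ℤ) ∣ n
    · obtain ⟨m, rfl⟩ := hd
      rw [qExpand_coeff_mul, coeff_serR_neg M R e (by nlinarith : m < 0), mul_zero]
    · rw [qExpand_coeff_of_not_dvd ℓ _ hd, mul_zero]
  · obtain ⟨n, rfl⟩ := Int.eq_ofNat_of_zero_le hn
    rw [coeff_serR, coeff_latSer_hecke, ← Nat.cast_mul, coeff_serR]
    by_cases hd : ℓ ∣ n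
    · rw [if_pos hd]
      obtain ⟨m, rfl⟩ := hd
      rw [Nat.mul_div_cancel_left m hℓ.pos, Nat.cast_mul, qExpand_coeff_mul, coeff_serR]
      push_cast
      rfl
    · rw [if_neg hd, qExpand_coeff_of_not_dvd ℓ _ (by exact_mod_cast hd)]
      push_cast
      ring

end Ser

end

end Fermat.Agent.S40Lib
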