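import Fermat.Agent.S40.Reg.LatSer

/-!
# S40 / S44, block (REG), (C5): the lattice is saturated
-/

set_option autoImplicit false
set_option synthInstance.maxHeartbeats 400000
set_option linter.unusedSectionVars false

open UpperHalfPlane AlgebraicCurve IntermediateField Polynomial ModularCurve CongruenceSubgroup CuspForm
  ModularFormClass

namespace Fermat.Agent.S40Lib

open Fermat.Agent.S18Lib Fermat.Agent.S24Lib Fermat.Agent.S28Lib Fermat.Agent.ESLib
  Fermat.Agent.S34Lib Fermat.Agent.FFLib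

noncomputable section

section Ser

variable (M : ℕ) [NeZero M]

/-- `latSer` as a linear map -/
def latSerL : intLattice M 2 →ₗ[ℤ] PowerSeries ℤ where
  toFun := latSer M
  map_add' := latSer_add M
  map_smul' n e := by
    rw [latSer_zsmul, RingHom.id_apply]
    ext i
    rw [PowerSeries.coeff_C_mul, map_zsmul, smul_eq_mul]

theorem latSerL_apply (e : intLattice M 2) : latSerL M e = latSer M e := rfl

/-- an element of the lattice all of whose coefficients are divisible by `p` is divisible by `p` -/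
theorem C5_exists_div {p : ℕ} (hp : p ≠ 0) (g : intLattice M 2)
    (h : ∀ n, (p : ℤ) ∣ (latSer M g).coeff n) : ∃ g' : intLattice M 2, g = (p : ℤ) • g' := by
  choose y hy using h
  have hpC : (p : ℂ) ≠ 0 := Nat.cast_ne_zero.2 hp
  have hmem : ((p : ℂ)⁻¹ • (g : CuspForm (Gamma0 M) 2)) ∈ intLattice M 2 := by
    rw [P2MW.S_CuspForm_intLattice_fg.W3WsD.mem_intLattice_iff]
    intro n
    refine ⟨y n, ?_⟩
    rw [Fermat.Agent.S49Lib.qCoeff_smul, ← coeff_latSer, hy n]
    push_cast
    field_simp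
  refine ⟨⟨_, hmem⟩, ?_⟩
  apply Subtype.ext
  show (g : CuspForm (Gamma0 M) 2) = (p : ℤ) • ((p : ℂ)⁻¹ • (g : CuspForm (Gamma0 M) 2))
  rw [← Int.cast_smul_eq_zsmul ℂ, smul_smul, Int.cast_natCast, mul_inv_cancel₀ hpC, one_smul]

/-- saturation, in coordinates -/
theorem C5_dvd {p : ℕ} (hp : p ≠ 0) {r : ℕ} (b : Module.Basis (Fin r) ℤ (intLattice M 2))
    (z : Fin r → ℤ) (h : ∀ n, (p : ℤ) ∣ ∑ i, z i * (latSer M (b i)).coeff n) (i : Fin r) :
    (p : ℤ) ∣ z i := by
  have h1 : ∀ n, (latSer M (∑ i, z i • b i)).coeff n = ∑ i, z i * (latSer M (b i)).coeff n := by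
    intro n
    rw [← latSerL_apply, map_sum, map_sum]
    refine Finset.sum_congr rfl fun i _ => ?_
    rw [map_smul, latSerL_apply, map_smul, smul_eq_mul]
  obtain ⟨g', hg'⟩ := C5_exists_div M hp (∑ i, z i • b i) (fun n => by rw [h1]; exact h n)
  have h2 := congrArg (fun x => b.repr x i) hg'
  simp only [map_smul, Finsupp.smul_apply, smul_eq_mul] at h2
  rw [b.repr_sum_self] at h2
  exact ⟨_, h2⟩

/-- (C5) `Reg/LatInd.lean` the lattice is saturated: a `ℤ`-basis stays independent in `k[[q]]` -/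
theorem serR_independent (p : ℕ) [Fact p.Prime] {k : Type*} [Field k] [CharP k p] {r : ℕ}
    (b : Module.Basis (Fin r) ℤ (intLattice M 2))
    (c : Fin r → k) (h : ∑ i, HahnSeries.C (c i) * serR M k (b i) = 0) : c = 0 := by
  have hp : p.Prime := Fact.out
  let _ : Algebra (ZMod p) k := ZMod.algebra k p
  by_contra hc
  obtain ⟨i₀, hi₀⟩ : ∃ i, c i ≠ 0 := by
    by_contra hcon
    push Not at hcon
    exact hc (funext hcon)
  obtain ⟨φ, hφ⟩ : ∃ φ : Module.Dual (ZMod p) k, φ (c i₀) ≠ 0 := by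
    by_contra hcon
    push Not at hcon
    exact hi₀ ((Module.forall_dual_apply_eq_zero_iff (ZMod p) (c i₀)).1 hcon)
  have h1 : ∀ n : ℕ, ∑ i, c i * (((latSer M (b i)).coeff n : ℤ) : k) = 0 := by
    intro n
    have h2 := congrArg (fun f : LaurentSeries k => f.coeff (n : ℤ)) h
    simp only [HahnSeries.coeff_sum, HahnSeries.C_mul_eq_smul, HahnSeries.coeff_smul,
      smul_eq_mul, coeff_serR, HahnSeries.coeff_zero] at h2
    exact h2
  have h2 : ∀ n : ℕ, ∑ i, φ (c i) * (((latSer M (b i)).coeff n : ℤ) : ZMod p) = 0 := by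
    intro n
    have h3 := congrArg φ (h1 n)
    rw [map_sum, map_zero] at h3
    rw [← h3]
    refine Finset.sum_congr rfl fun i _ => ?_
    have e : c i * (((latSer M (b i)).coeff n : ℤ) : k) =
        (((latSer M (b i)).coeff n : ℤ) : ZMod p) • c i := by
      rw [Algebra.smul_def, map_intCast, mul_comm]
    rw [e, map_smul, smul_eq_mul, mul_comm]
  choose z hz using fun i => ZMod.intCast_surjective (φ (c i))
  have h3 : ∀ n, (p : ℤ) ∣ ∑ i, z i * (latSer M (b i)).coeff n := by
    intro n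
    rw [← ZMod.intCast_zmod_eq_zero_iff_dvd]
    push_cast
    rw [← h2 n]
    refine Finset.sum_congr rfl fun i _ => ?_
    rw [hz]
  have h4 := C5_dvd M hp.ne_zero b z h3 i₀
  rw [← ZMod.intCast_zmod_eq_zero_iff_dvd, hz] at h4
  exact hφ h4

end Ser

end

end Fermat.Agent.S40Lib
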