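import Fermat.Agent.S34.GoodM
import Fermat.Agent.S40.TopDefs
import Fermat.Agent.S49.Hecke

/-!
# S40 / S44, block (REG), (C3): the integral `q`-expansion of an element of the lattice
-/

set_option autoImplicit false
set_option synthInstance.maxHeartbeats 400000
set_option linter.unusedSectionVars false

open UpperHalfPlane AlgebraicCurve IntermediateField Polynomial ModularCurve CongruenceSubgroup CuspForm
  ModularFormClass

namespace Fermat.Agent.S40Lib

open Fermat.Agent.S18Lib Fermat.Agent.S24Lib Fermat.Agent.S28Lib Fermat.Agent.ESLib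
  Fermat.Agent.S34Lib Fermat.Agent.FFLib

noncomputable section

section Ser

variable (M : ℕ) [NeZero M]

/-- (C3) `Reg/LatSer.lean` the integral `q`-expansion of an element of the lattice -/
theorem exists_latSer (e : intLattice M 2) : ∃ φ : PowerSeries ℤ,
    qExpansion 1 ((e : intLattice M 2) : CuspForm (Gamma0 M) 2) =
      φ.map (Int.castRingHom ℂ) := by
  have h := (P2MW.S_CuspForm_intLattice_fg.W3WsD.mem_intLattice_iff _).1 e.2
  choose m hm using h
  refine ⟨PowerSeries.mk m, ?_⟩
  ext n
  rw [PowerSeries.coeff_map, PowerSeries.coeff_mk, eq_intCast]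
  exact hm n

def latSer (e : intLattice M 2) : PowerSeries ℤ := (exists_latSer M e).choose

/-- the `q`-expansion of a lattice element with coefficients in `R` -/
def serR (R : Type*) [CommRing R] (e : intLattice M 2) : LaurentSeries R :=
  HahnSeries.ofPowerSeries ℤ R ((latSer M e).map (Int.castRingHom R))

theorem latSer_spec (e : intLattice M 2) :
    qExpansion 1 ((e : intLattice M 2) : CuspForm (Gamma0 M) 2) =
      (latSer M e).map (Int.castRingHom ℂ) := (exists_latSer M e).choose_spec

theorem coeff_latSer (e : intLattice M 2) (n : ℕ) :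
    (((latSer M e).coeff n : ℤ) : ℂ) = qCoeff ((e : intLattice M 2) : CuspForm (Gamma0 M) 2) n := by
  unfold qCoeff
  rw [latSer_spec, PowerSeries.coeff_map, eq_intCast]

theorem latSer_ext {e : intLattice M 2} {φ : PowerSeries ℤ}
    (h : ∀ n, ((φ.coeff n : ℤ) : ℂ) = qCoeff ((e : intLattice M 2) : CuspForm (Gamma0 M) 2) n) :
    latSer M e = φ := by
  ext n
  have h1 := coeff_latSer M e n
  rw [← h n] at h1
  exact_mod_cast h1

theorem latSer_add (e e' : intLattice M 2) : latSer M (e + e') = latSer M e + latSer M e' := by
  apply latSer_ext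
  intro n
  rw [map_add, Int.cast_add, coeff_latSer, coeff_latSer]
  exact (P2MW.S_CuspForm_intLattice_fg.W3WsD.qCoeff_add _ _ n).symm

theorem latSer_zsmul (n : ℤ) (e : intLattice M 2) :
    latSer M (n • e) = PowerSeries.C n * latSer M e := by
  apply latSer_ext
  intro i
  rw [PowerSeries.coeff_C_mul, Int.cast_mul, coeff_latSer]
  exact (P2MW.S_CuspForm_intLattice_fg.W3WsD.qCoeff_zsmul n _ i).symm

/-- (C3) additivity -/
theorem serR_add (R : Type*) [CommRing R] (e e' : intLattice M 2) :
    serR M R (e + e') = serR M R e + serR M R e' := by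
  unfold serR
  rw [latSer_add, map_add, map_add]

theorem serR_zsmul (R : Type*) [CommRing R] (n : ℤ) (e : intLattice M 2) :
    serR M R (n • e) = HahnSeries.C (n : R) * serR M R e := by
  unfold serR
  rw [latSer_zsmul, map_mul, map_mul, PowerSeries.map_C, HahnSeries.ofPowerSeries_C, eq_intCast]

/-- the coefficients of `serR` -/
theorem coeff_serR (R : Type*) [CommRing R] (e : intLattice M 2) (n : ℕ) :
    (serR M R e).coeff (n : ℤ) = (((latSer M e).coeff n : ℤ) : R) := by
  unfold serR
  have h := PowerSeries.coeff_coe (R := R) ((latSer M e).map (Int.castRingHom R)) (n : ℤ)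
  rw [if_neg (by omega), Int.natAbs_natCast, PowerSeries.coeff_map, eq_intCast] at h
  exact h

theorem coeff_serR_neg (R : Type*) [CommRing R] (e : intLattice M 2) {n : ℤ} (hn : n < 0) :
    (serR M R e).coeff n = 0 := by
  unfold serR
  have h := PowerSeries.coeff_coe (R := R) ((latSer M e).map (Int.castRingHom R)) n
  rw [if_pos hn] at h
  exact h

end Ser

end

end Fermat.Agent.S40Lib
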