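import Fermat.Agent.S40.Reg.LogHecke
import Fermat.Agent.S40.Reg.LatSer
import Fermat.Agent.S40.Reg.LatHecke
import Fermat.Agent.S40.Reg.LatInd
import Fermat.Agent.S40.Reg.CharEig
import Fermat.Agent.S40.Reg.HeckeGen

/-!
# S40 / S44, block (REG), (C8): a nonzero eigen-series in the span of the reduced lattice gives
a character of the Hecke algebra
-/

set_option autoImplicit false
set_option synthInstance.maxHeartbeats 400000

open UpperHalfPlane AlgebraicCurve IntermediateField Polynomial ModularCurve CongruenceSubgroup CuspForm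
  ModularFormClass

namespace Fermat.Agent.S40Lib

open Fermat.Agent.S18Lib Fermat.Agent.S24Lib Fermat.Agent.S28Lib Fermat.Agent.ESLib
  Fermat.Agent.S34Lib Fermat.Agent.FFLib

noncomputable section

variable (M : ℕ) [NeZero M]

/-- `serR` as an additive map -/
def OC_serHom (R : Type*) [CommRing R] : intLattice M 2 →+ LaurentSeries R where
  toFun := serR M R
  map_zero' := by
    have := serR_zsmul M R 0 (0 : intLattice M 2)
    rwa [zero_smul, Int.cast_zero, map_zero, zero_mul] at this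
  map_add' := serR_add M R

theorem OC_heckeAddS_sum {R : Type*} [CommRing R] (ℓ : ℕ) [NeZero ℓ] {ι : Type*} (T : Finset ι)
    (c : ι → R) (f : ι → LaurentSeries R) :
    heckeAddS ℓ (∑ i ∈ T, HahnSeries.C (c i) * f i) =
      ∑ i ∈ T, HahnSeries.C (c i) * heckeAddS ℓ (f i) := by
  have h1 : ESLib.contract ℓ (∑ i ∈ T, HahnSeries.C (c i) * f i) =
      ∑ i ∈ T, HahnSeries.C (c i) * ESLib.contract ℓ (f i) := by
    ext n
    rw [contract_coeff, HahnSeries.coeff_sum, HahnSeries.coeff_sum]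
    refine Finset.sum_congr rfl fun i _ => ?_
    rw [HahnSeries.C_mul_eq_smul, HahnSeries.C_mul_eq_smul, HahnSeries.coeff_smul,
      HahnSeries.coeff_smul, contract_coeff]
  unfold heckeAddS
  rw [h1, map_sum, Finset.mul_sum, ← Finset.sum_add_distrib]
  refine Finset.sum_congr rfl fun i _ => ?_
  rw [map_mul, qExpand_C]
  ring

theorem OC_ser_repr (R : Type*) [CommRing R] {r : ℕ}
    (b : Module.Basis (Fin r) ℤ (intLattice M 2)) (e : intLattice M 2) :
    serR M R e = ∑ j, HahnSeries.C ((b.repr e j : ℤ) : R) * serR M R (b j) := by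
  conv_lhs => rw [← b.sum_repr e]
  change OC_serHom M R _ = _
  rw [map_sum]
  refine Finset.sum_congr rfl fun j _ => ?_
  exact serR_zsmul M R _ _

/-- (C8) `Reg/Occurs.lean` a nonzero eigen-series in the span of the reduced lattice gives the
character -/
theorem occurs_of_series (p : ℕ) [Fact p.Prime] {k : Type} [Field k] [CharP k p]
    (S : Finset ℕ) (a : ℕ → ℤ) (hS : ∀ q : ℕ, q.Prime → q ∣ M → q ∈ S)
    (φ : LaurentSeries k) (hφ : φ ≠ 0)
    (hspan : ∃ (r : ℕ) (e : Fin r → intLattice M 2) (c : Fin r → k),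
      φ = ∑ i, HahnSeries.C (c i) * serR M k (e i))
    (heig : ∀ (ℓ : ℕ) [NeZero ℓ], ℓ.Prime → ℓ ∉ S →
      heckeAddS ℓ φ = HahnSeries.C (a ℓ : k) * φ) :
    Occurs M p S a := by
  classical
  have := intLattice.moduleFinite M
  have := intLattice.moduleFree M
  let b := Module.finBasis ℤ ↥(intLattice M 2)
  let Θ : heckeAlgebra M 2 (↑S : Set ℕ) →+* Matrix (Fin (Module.finrank ℤ ↥(intLattice M 2)))
      (Fin (Module.finrank ℤ ↥(intLattice M 2))) ℤ :=
    (LinearMap.toMatrixAlgEquiv b).toRingEquiv.toRingHom.comp (latticeActionHom M (↑S : Set ℕ))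
  obtain ⟨r, e, c, hφe⟩ := hspan
  -- coordinates of `φ` in the basis
  set c' : Fin (Module.finrank ℤ ↥(intLattice M 2)) → k :=
    fun j => ∑ i, c i * ((b.repr (e i) j : ℤ) : k) with hc'
  have hφb : φ = ∑ j, HahnSeries.C (c' j) * serR M k (b j) := by
    rw [hφe]
    simp only [hc', map_sum, Finset.sum_mul, map_mul]
    rw [Finset.sum_comm]
    refine Finset.sum_congr rfl fun i _ => ?_
    rw [OC_ser_repr M k b (e i), Finset.mul_sum]
    refine Finset.sum_congr rfl fun j _ => ?_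
    rw [mul_assoc]
  have hc'0 : c' ≠ 0 := by
    intro h0
    apply hφ
    rw [hφb, h0]
    simp
  -- the eigenvector property
  have hev : ∀ (ℓ : ℕ) (hℓ : ℓ.Prime) (hℓM : ¬ ℓ ∣ M) (hℓS : ℓ ∉ (↑S : Set ℕ)),
      Matrix.mulVec ((Θ (heckeAlgebra.T hℓ hℓM hℓS)).map (Int.castRingHom k)) c' =
        (a ℓ : k) • c' := by
    intro ℓ hℓ hℓM hℓS
    have : NeZero ℓ := ⟨hℓ.ne_zero⟩
    set t := heckeAlgebra.T (k := 2) hℓ hℓM hℓS with ht
    have h1 := heig ℓ hℓ (by simpa using hℓS)
    have h2 : heckeAddS ℓ φ = ∑ i, HahnSeries.C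
        (Matrix.mulVec ((Θ t).map (Int.castRingHom k)) c' i) * serR M k (b i) := by
      rw [hφb, OC_heckeAddS_sum]
      have h3 : ∀ j, heckeAddS ℓ (serR M k (b j)) =
          ∑ i, HahnSeries.C ((Θ t i j : ℤ) : k) * serR M k (b i) := by
        intro j
        rw [← serR_hecke M k (↑S : Set ℕ) hℓ hℓM hℓS (b j), OC_ser_repr M k b]
        refine Finset.sum_congr rfl fun i _ => ?_
        have e4 : Θ t i j = b.repr (latticeActionHom M (↑S : Set ℕ) t (b j)) i :=
          LinearMap.toMatrixAlgEquiv_apply b (latticeActionHom M (↑S : Set ℕ) t) i j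
        rw [e4]
      simp only [h3, Finset.mul_sum]
      rw [Finset.sum_comm]
      refine Finset.sum_congr rfl fun i _ => ?_
      simp only [Matrix.mulVec, dotProduct, Matrix.map_apply, eq_intCast, map_sum, map_mul,
        Finset.sum_mul]
      refine Finset.sum_congr rfl fun j _ => ?_
      ring
    have h4 : ∑ i, HahnSeries.C
        (Matrix.mulVec ((Θ t).map (Int.castRingHom k)) c' i - (a ℓ : k) * c' i) *
          serR M k (b i) = 0 := by
      simp only [map_sub, map_mul, sub_mul, Finset.sum_sub_distrib]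
      rw [← h2, h1, hφb, Finset.mul_sum, sub_eq_zero]
      refine Finset.sum_congr rfl fun i _ => ?_
      rw [mul_assoc]
    have h5 := serR_independent M p b _ h4
    funext i
    have h6 := congrFun h5 i
    simp only [Pi.zero_apply, sub_eq_zero] at h6
    rw [h6, Pi.smul_apply, smul_eq_mul]
  -- the eigenvalue function
  set G : Set (heckeAlgebra M 2 (↑S : Set ℕ)) :=
    {t | ∃ (ℓ : ℕ) (hℓ : ℓ.Prime) (hℓM : ¬ ℓ ∣ M) (hℓS : ℓ ∉ (↑S : Set ℕ)),
      t = heckeAlgebra.T hℓ hℓM hℓS} with hG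
  have hex : ∀ t ∈ G, ∃ lam : k,
      Matrix.mulVec ((Θ t).map (Int.castRingHom k)) c' = lam • c' := by
    rintro t ⟨ℓ, hℓ, hℓM, hℓS, rfl⟩
    exact ⟨_, hev ℓ hℓ hℓM hℓS⟩
  let a' : heckeAlgebra M 2 (↑S : Set ℕ) → k := fun t =>
    if ht : t ∈ G then (hex t ht).choose else 0
  have ha' : ∀ t ∈ G, Matrix.mulVec ((Θ t).map (Int.castRingHom k)) c' = a' t • c' := by
    intro t ht
    simp only [a', dif_pos ht]
    exact (hex t ht).choose_spec
  obtain ⟨χ, hχ⟩ := exists_char_of_eigenvector Θ c' hc'0 G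
    (heckeAlgebra_closure M (↑S : Set ℕ) (fun q hq hqM => by simpa using hS q hq hqM)) a' ha'
  refine ⟨k, inferInstance, inferInstance, χ, fun ℓ hℓ hℓM hℓS => ?_⟩
  have hmem : heckeAlgebra.T (k := 2) hℓ hℓM hℓS ∈ G := ⟨ℓ, hℓ, hℓM, hℓS, rfl⟩
  rw [hχ _ hmem]
  have h7 := (ha' _ hmem).symm.trans (hev ℓ hℓ hℓM hℓS)
  obtain ⟨i₀, hi₀⟩ : ∃ i, c' i ≠ 0 := by
    by_contra hcon
    push Not at hcon
    exact hc'0 (funext hcon)
  have h8 := congrFun h7 i₀
  simp only [Pi.smul_apply, smul_eq_mul] at h8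
  exact mul_right_cancel₀ hi₀ h8

end

end Fermat.Agent.S40Lib
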