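import Fermat.Agent.S40.Reg.Span
import Fermat.Agent.S40.Reg.Occurs
import Fermat.Agent.S40.Reg.LogEig

/-!
# S40, block (REG): the main statement `reg_main` (assembly of helper14's skeleton v2)
-/

set_option autoImplicit false
set_option synthInstance.maxHeartbeats 400000
set_option linter.unusedSectionVars false

open UpperHalfPlane AlgebraicCurve IntermediateField Polynomial ModularCurve CongruenceSubgroup
  CuspForm ModularFormClass

namespace Fermat.Agent.S40Lib

open Fermat.Agent.S18Lib Fermat.Agent.S24Lib Fermat.Agent.S28Lib Fermat.Agent.ESLib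
  Fermat.Agent.S34Lib Fermat.Agent.FFLib

noncomputable section

variable (M : ℕ) [NeZero M]
variable (p : ℕ) [NeZero p] [hpF : Fact p.Prime] (hpM : ¬ p ∣ M)
variable (A : ValuationSubring Qb) (hA : A.LiesOverPrime p)

include hpM hA in
/-- **(REG)** `Reg/Main.lean` -/
theorem reg_main (h5 : 5 ≤ p) (S : Finset ℕ) (a : ℕ → ℤ)
    (hS : ∀ q : ℕ, q.Prime → q ∣ p * M → q ∈ S)
    (h : FT A M) (hθ : thetaFun (h : LaurentSeries (kk A)) ≠ 0)
    (hord : ∀ Q : Place (kk A) (FT A M), (p : ℤ) ∣ Q.ord h)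
    (heig : ∀ (ℓ : ℕ) [NeZero ℓ], ℓ.Prime → ℓ ∉ S →
      ∃ (c : kk A) (g : LaurentSeries (kk A)) (n : ℤ), (p : ℤ) ∣ n - a ℓ ∧
      heckeMul ℓ (h : LaurentSeries (kk A)) =
        HahnSeries.C c * g ^ p * (h : LaurentSeries (kk A)) ^ n) :
    Occurs M p S a := by
  have hk := isAlgClosed_kk A
  have hchar : CharP (kk A) p := Fermat.Agent.ESLib.charP_kk hpF.out hA
  have hh : h ≠ 0 := by
    rintro rfl
    apply hθ
    ext n
    simp
  have hh' : (h : LaurentSeries (kk A)) ≠ 0 := by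
    intro h0
    exact hh (Subtype.ext h0)
  refine occurs_of_series M p S a (fun q hq hqM => hS q hq (Dvd.dvd.mul_left hqM p))
    (thetaFun (h : LaurentSeries (kk A)) / (h : LaurentSeries (kk A)))
    (div_ne_zero hθ hh') (dlog_mem_lattice M p hpM A hA h5 h hh hord) ?_
  intro ℓ _ hℓ hℓS
  obtain ⟨c, g, n, hn, hg⟩ := heig ℓ hℓ hℓS
  have hℓp : ℓ ≠ p := by
    rintro rfl
    exact hℓS (hS ℓ hℓ (dvd_mul_right ℓ M))
  have hℓk : (ℓ : kk A) ≠ 0 := by
    intro h0
    have := (CharP.cast_eq_zero_iff (kk A) p ℓ).mp h0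
    exact hℓp ((Nat.prime_dvd_prime_iff_eq hpF.out hℓ).mp this).symm
  exact heckeAddS_dlog p ℓ hℓk _ g hh' c (a ℓ) n hn hg

end

end Fermat.Agent.S40Lib
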