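import Fermat.Agent.Lib.FF.Riemann
import Fermat.Agent.Lib.FF.Approx
import Fermat.Agent.Lib.FF.Degree

/-!
# S40 / S44, block (REG), (A2): functions regular at `Q` are quotients of functions with poles only
at the poles of `x`
-/

set_option autoImplicit false
set_option synthInstance.maxHeartbeats 400000

open AlgebraicCurve IntermediateField Polynomial

namespace Fermat.Agent.S40Lib

open Fermat.Agent.S24Lib Fermat.Agent.FFLib

section Abs

variable {k κ : Type*} [Field k] [Field κ] [Algebra k κ]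

/-- (A2) `Reg/AbsFrac.lean` every function regular at `Q` is a quotient of two functions with
poles only at the poles of `x` (`Q` not a pole of `x`), the denominator being a unit at `Q`. -/
theorem RG_exists_frac [IsAlgClosed k] (h : IsFF k κ) (x : κ) (hx : Transcendental k x)
    (Q : Place k κ) (hQ : 0 ≤ Q.ord x) (v : κ) (hv : D2_ge Q 0 v) (n₀ : ℕ) :
    ∃ n, n₀ ≤ n ∧ ∃ a b : κ, a ∈ riemannRochSpace (n • poleDiv k x) ∧
      b ∈ riemannRochSpace (n • poleDiv k x) ∧ b ≠ 0 ∧ Q.ord b = 0 ∧ v = a / b := by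
  classical
  have hJ : ∀ P : Place k κ, poleDiv k x P = max (-P.ord x) 0 := poleDiv_apply h x
  have hJ0 : ∀ P : Place k κ, 0 ≤ poleDiv k x P := fun P => by rw [hJ]; exact le_max_right _ _
  by_cases hv0 : v = 0
  · refine ⟨n₀, le_rfl, 0, 1, Submodule.zero_mem _, ?_, one_ne_zero, Place.ord_one _,
      by rw [hv0, zero_div]⟩
    rw [mem_L_iff]
    intro P
    right
    rw [Place.ord_one, Finsupp.smul_apply, nsmul_eq_mul]
    have := hJ0 P
    have h2 : (0 : ℤ) ≤ (n₀ : ℤ) * poleDiv k x P := by positivity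
    omega
  have hvQ : 0 ≤ Q.ord v := hv.resolve_left hv0
  set E : Divisor k κ := (poleDiv k v).filter (fun P => 0 ≤ P.ord x) with hEdef
  have hE : ∀ P : Place k κ, E P = if 0 ≤ P.ord x then max (-P.ord v) 0 else 0 := by
    intro P
    rw [hEdef, Finsupp.filter_apply, poleDiv_apply h]
  obtain ⟨c, hc⟩ := riemann_equality h
  obtain ⟨B, hB⟩ := wa_bound (finite_ord_ne_zero h v).toFinset (fun P => -P.ord v)
  have hB' : ∀ P : Place k κ, -P.ord v ≤ max B 0 := by
    intro P
    by_cases hP : P.ord v = 0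
    · rw [hP, neg_zero]; exact le_max_right _ _
    · exact (hB P (by simpa using hP)).trans (le_max_left _ _)
  have hd : 1 ≤ Divisor.degree (poleDiv k x) := by
    rw [degree_poleDiv h hx]
    have : FiniteDimensional k⟮x⟯ κ := h.finiteDimensional hx
    have := Module.finrank_pos (R := k⟮x⟯) (M := κ)
    omega
  set n' : ℕ := (c + Divisor.degree E + 1).toNat + n₀ with hn'
  set A₀ : Divisor k κ := n' • poleDiv k x - E - Finsupp.single Q 1 with hA₀
  have hdeg : c ≤ Divisor.degree A₀ := by
    rw [hA₀, map_sub, map_sub, map_nsmul, degree_single' h, nsmul_eq_mul]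
    have h1 : c + Divisor.degree E + 1 ≤ (n' : ℤ) := by
      rw [hn']
      push_cast
      have := Int.self_le_toNat (c + Divisor.degree E + 1)
      omega
    have h2 : (n' : ℤ) * 1 ≤ (n' : ℤ) * Divisor.degree (poleDiv k x) :=
      mul_le_mul_of_nonneg_left hd (by positivity)
    omega
  have e1 := hc A₀ hdeg
  have e2 := hc (A₀ + Finsupp.single Q 1) (by rw [map_add, degree_single' h]; omega)
  rw [map_add, degree_single' h] at e2
  have hne : ¬ riemannRochSpace (A₀ + Finsupp.single Q 1) ≤ riemannRochSpace A₀ := by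
    intro hle
    have : FiniteDimensional k (riemannRochSpace A₀) := finiteDimensional_L h A₀
    have h3 : ell (A₀ + Finsupp.single Q 1) ≤ ell A₀ := Submodule.finrank_mono hle
    have h4 : (ell (A₀ + Finsupp.single Q 1) : ℤ) ≤ ell A₀ := by exact_mod_cast h3
    omega
  obtain ⟨b, hb, hb'⟩ := SetLike.not_le_iff_exists.1 hne
  obtain ⟨hb0, hbQ⟩ := ls_ord_eq hb hb'
  have hJQ : poleDiv k x Q = 0 := by rw [hJ]; exact max_eq_right (by omega)
  have hEQ : E Q = 0 := by rw [hE, if_pos hQ]; exact max_eq_right (by omega)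
  have hbQ0 : Q.ord b = 0 := by
    rw [hbQ, hA₀, Finsupp.sub_apply, Finsupp.sub_apply, Finsupp.smul_apply, hJQ, hEQ,
      Finsupp.single_eq_same]
    simp
  have hA1 : A₀ + Finsupp.single Q 1 = n' • poleDiv k x - E := by rw [hA₀]; abel
  rw [hA1, mem_L_iff] at hb
  have hbP : ∀ P : Place k κ, -((n' : ℤ) * poleDiv k x P - E P) ≤ P.ord b := by
    intro P
    have := (hb P).resolve_left hb0
    rwa [Finsupp.sub_apply, Finsupp.smul_apply, nsmul_eq_mul] at this
  have hE0 : ∀ P : Place k κ, 0 ≤ E P := by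
    intro P
    rw [hE]
    split_ifs
    · exact le_max_right _ _
    · exact le_rfl
  set n₁ : ℕ := (max B 0).toNat with hn₁
  have hn₁' : (n₁ : ℤ) = max B 0 := Int.toNat_of_nonneg (le_max_right _ _)
  refine ⟨n' + n₁, by omega, v * b, b, ?_, ?_, hb0, hbQ0, by field_simp⟩
  · rw [mem_L_iff]
    intro P
    right
    rw [P.ord_mul hv0 hb0, Finsupp.smul_apply, nsmul_eq_mul]
    push_cast
    have h1 := hbP P
    have h2 := hB' P
    have h3 := hE P
    have h4 := hJ P
    by_cases hP : 0 ≤ P.ord x
    · rw [if_pos hP] at h3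
      have h5 : poleDiv k x P = 0 := by rw [hJ]; exact max_eq_right (by omega)
      rw [h5] at h1 ⊢
      have h6 : -P.ord v ≤ E P := by rw [h3]; exact le_max_left _ _
      simp only [mul_zero] at h1 ⊢
      omega
    · rw [if_neg hP] at h3
      have h5 : 1 ≤ poleDiv k x P := by
        rw [hJ]
        exact le_max_of_le_left (by omega)
      have h6 : (n₁ : ℤ) * 1 ≤ (n₁ : ℤ) * poleDiv k x P :=
        mul_le_mul_of_nonneg_left h5 (by positivity)
      rw [add_mul]
      omega
  · rw [mem_L_iff]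
    intro P
    right
    rw [Finsupp.smul_apply, nsmul_eq_mul]
    push_cast
    have h1 := hbP P
    have h2 := hE0 P
    have h6 : (0 : ℤ) ≤ (n₁ : ℤ) * poleDiv k x P := mul_nonneg (by positivity) (hJ0 P)
    rw [add_mul]
    omega

end Abs

end Fermat.Agent.S40Lib
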