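import Fermat.Agent.S24.OrdDiff

/-!
# S40 / S44, block (REG), (A1): the quotient rule
-/

set_option autoImplicit false

open AlgebraicCurve

namespace Fermat.Agent.S40Lib

open Fermat.Agent.S24Lib

section Abs

variable {k κ : Type*} [Field k] [Field κ] [Algebra k κ]

/-- from `6 ord x + ord w ≥ m > 6 n + ord w` we get `ord x ≥ n + 1` -/
theorem RG_quot_aux (Q : Place k κ) (w x : κ) (hw : w ≠ 0) (m n : ℤ)
    (h : D2_ge Q m (x ^ 6 * w)) (hn : 6 * n + Q.ord w < m) : D2_ge Q (n + 1) x := by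
  by_cases hx : x = 0
  · exact Or.inl hx
  right
  rcases h with h | h
  · exact absurd h (mul_ne_zero (pow_ne_zero 6 hx) hw)
  · have h6 : Q.ord (x ^ 6) = 6 * Q.ord x := by
      have := Q.ord_zpow x 6
      simpa using this
    rw [Q.ord_mul (pow_ne_zero 6 hx) hw, h6] at h
    omega

/-- (A1) `Reg/AbsQuot.lean` quotient rule.  `w` is a weight (`w = j^4 (j-1728)^3`). -/
theorem RG_quot (D : Derivation k κ κ) (Q : Place k κ) (w a b : κ) (m : ℤ)
    (ha : D2_ge Q 0 a) (hb0 : b ≠ 0) (hb : Q.ord b = 0)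
    (h1 : D2_ge Q m ((D a) ^ 6 * w)) (h2 : D2_ge Q m ((D b) ^ 6 * w)) :
    D2_ge Q m ((D (a / b)) ^ 6 * w) := by
  by_cases hw : w = 0
  · left; rw [hw, mul_zero]
  by_cases hz : D (a / b) = 0
  · left; rw [hz]; simp
  right
  have h6 : Q.ord ((D (a / b)) ^ 6) = 6 * Q.ord (D (a / b)) := by
    have := Q.ord_zpow (D (a / b)) 6
    simpa using this
  rw [Q.ord_mul (pow_ne_zero 6 hz) hw, h6]
  by_contra hlt
  push Not at hlt
  have hA := RG_quot_aux Q w (D a) hw m _ h1 hlt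
  have hB := RG_quot_aux Q w (D b) hw m _ h2 hlt
  have hbi : D2_ge Q 0 b⁻¹ := Or.inr (by rw [Q.ord_inv, hb, neg_zero])
  have hformula : D (a / b) = D a * b⁻¹ - D b * (a * (b⁻¹ * b⁻¹)) := by
    have h3 : D a = D (a / b * b) := by rw [div_mul_cancel₀ a hb0]
    rw [Derivation.leibniz, smul_eq_mul, smul_eq_mul] at h3
    rw [h3]
    field_simp
    ring
  have hX := D2.ge_mul Q hA hbi
  have hY := D2.ge_mul Q hB (D2.ge_mul Q ha (D2.ge_mul Q hbi hbi))
  simp only [add_zero] at hX hY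
  have hZ := D2.ge_sub Q hX hY
  rw [← hformula] at hZ
  rcases hZ with hZ | hZ
  · exact hz hZ
  · omega

end Abs

end Fermat.Agent.S40Lib
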