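import Fermat.Agent.Lib.FF.Zeros

/-!
# S40 / S44, block (REG), (A3): `L(n (1/(j-c))_∞) = (j-c)^(-n) L(n (j)_∞)`
-/

set_option autoImplicit false

open AlgebraicCurve

namespace Fermat.Agent.S40Lib

open Fermat.Agent.S24Lib Fermat.Agent.FFLib

section Abs

variable {k κ : Type*} [Field k] [Field κ] [Algebra k κ]

/-- (A3) `Reg/AbsShift.lean` `L(n (1/(j-c))_∞) = (j-c)^(-n) L(n (j)_∞)` -/
theorem RG_shift [IsAlgClosed k] (h : IsFF k κ) (j : κ) (hj : Transcendental k j) (c : k) (n : ℕ)
    (y : κ) :
    y ∈ riemannRochSpace (n • poleDiv k (j - algebraMap k κ c)⁻¹) ↔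
      y * (j - algebraMap k κ c) ^ n ∈ riemannRochSpace (n • poleDiv k j) := by
  set s : κ := j - algebraMap k κ c with hs
  have hj0 : j ≠ 0 := by
    rintro rfl
    exact hj isAlgebraic_zero
  have hs0 : s ≠ 0 := by
    intro h0
    have : j = algebraMap k κ c := sub_eq_zero.1 h0
    exact hj (this ▸ isAlgebraic_algebraMap c)
  have hmin : ∀ P : Place k κ, min (P.ord s) 0 = min (P.ord j) 0 := by
    intro P
    have h1 : min (P.ord s) 0 ≤ P.ord j := by
      have h3 : j = s + algebraMap k κ c := by rw [hs]; ring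
      have h4 := min_le_ord_add P (f := s) (g := algebraMap k κ c) (by rw [← h3]; exact hj0)
      rwa [← h3, ord_algebraMap] at h4
    have h2 : min (P.ord j) 0 ≤ P.ord s := by
      have h3 : s = j + algebraMap k κ (-c) := by rw [hs, map_neg]; ring
      have h4 := min_le_ord_add P (f := j) (g := algebraMap k κ (-c)) (by rw [← h3]; exact hs0)
      rwa [← h3, ord_algebraMap] at h4
    omega
  rw [mem_L_iff, mem_L_iff]
  refine forall_congr' fun P => ?_
  rw [Finsupp.smul_apply, Finsupp.smul_apply, poleDiv_apply h, poleDiv_apply h, P.ord_inv, neg_neg,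
    nsmul_eq_mul, nsmul_eq_mul]
  by_cases hy : y = 0
  · simp [hy, D2_ge]
  have hsn : s ^ n ≠ 0 := pow_ne_zero n hs0
  have hordn : P.ord (s ^ n) = n * P.ord s := by
    have := P.ord_zpow s n
    simpa using this
  have hm := hmin P
  have e1 : max (P.ord s) 0 = P.ord s - min (P.ord s) 0 := by omega
  have e2 : max (-P.ord j) 0 = - min (P.ord s) 0 := by omega
  unfold D2_ge
  rw [P.ord_mul hy hsn, hordn, e1, e2]
  constructor
  · rintro (h0 | h0)
    · exact absurd h0 hy
    · right; linarith
  · rintro (h0 | h0)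
    · exact absurd h0 (mul_ne_zero hy hsn)
    · right; linarith

end Abs

end Fermat.Agent.S40Lib
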