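import Fermat.Agent.Lib.FF.TraceFunctional
import Fermat.Agent.Lib.FF.Riemann

/-!
# S40 / S44, block (REG), (A6): a space of `genus` many independent regular differentials contains
every regular differential
-/

set_option autoImplicit false
set_option synthInstance.maxHeartbeats 400000

open AlgebraicCurve IntermediateField Polynomial

namespace Fermat.Agent.S40Lib

open Fermat.Agent.S24Lib Fermat.Agent.FFLib

section Abs

variable {k κ : Type*} [Field k] [Field κ] [Algebra k κ]

/-- (A6) `Reg/AbsSpan.lean` a space of `genus` many independent regular differentials contains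
every regular differential -/
theorem RG_span [IsAlgClosed k] (h : IsFF k κ) {t : κ} (ht : Transcendental k t)
    [Algebra.IsSeparable k⟮t⟯ κ] {γ : ℕ} (hγ : genusR k κ ≤ γ) (ω : Fin γ → κ)
    (hω : LinearIndependent k ω) (ω₀ : κ)
    (hfin : ∀ i (Q : Place k κ) (c : k), 0 < Q.ord (t - algebraMap k κ c) →
      D2_ge Q (1 - Q.ord (t - algebraMap k κ c)) (ω i))
    (hinf : ∀ i (Q : Place k κ), Q.ord t < 0 → D2_ge Q (1 - Q.ord t) (ω i))
    (hfin₀ : ∀ (Q : Place k κ) (c : k), 0 < Q.ord (t - algebraMap k κ c) →
      D2_ge Q (1 - Q.ord (t - algebraMap k κ c)) ω₀)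
    (hinf₀ : ∀ (Q : Place k κ), Q.ord t < 0 → D2_ge Q (1 - Q.ord t) ω₀) :
    ω₀ ∈ Submodule.span k (Set.range ω) := by
  by_contra hne
  have hli : LinearIndependent k (Fin.cons ω₀ ω : Fin (γ + 1) → κ) :=
    linearIndependent_finCons.2 ⟨hω, hne⟩
  obtain ⟨E, -, hE⟩ := exists_ell_le_of_differentials h ht (Fin.cons ω₀ ω : Fin (γ + 1) → κ) hli
    (by
      intro i
      refine Fin.cases ?_ (fun i => ?_) i
      · simpa using hfin₀
      · simpa using hfin i)
    (by
      intro i
      refine Fin.cases ?_ (fun i => ?_) i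
      · simpa using hinf₀
      · simpa using hinf i) 0
  have h1 := riemann_inequality h E
  have h2 : (genusR k κ : ℤ) ≤ γ := by exact_mod_cast hγ
  push_cast at hE
  omega

end Abs

end Fermat.Agent.S40Lib
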