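import Fermat.Agent.Lib.FF.TraceFunctional
import Fermat.Agent.Lib.FF.Approx
import Fermat.Agent.Lib.FF.ThetaD
import Fermat.Agent.S37.BaseOps

/-!
# S40/S44 REG, block (DLOG), leaf (DL0): functions regular at the zeros of `s`
-/

set_option autoImplicit false

open AlgebraicCurve IntermediateField Polynomial Fermat.Agent.S24Lib Fermat.Agent.FFLib

namespace Fermat.Agent.S40Lib

variable {K F : Type*} [Field K] [Field F] [Algebra K F]

/-- `x` is regular at all zeros of `s` -/
def RegAt (K : Type*) {F : Type*} [Field K] [Field F] [Algebra K F] (s x : F) : Prop :=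
  ∀ Q : Place K F, 0 < Q.ord s → 0 ≤ Q.ord x

/-! ### (DL0) `Reg/Basic.lean` -/

/-- the functions regular at all zeros of `s`, as a subring -/
theorem regAt_iff_mem (s x : F) :
    RegAt K s x ↔ ∀ Q : Place K F, 0 < Q.ord s → x ∈ Q.toValuationSubring := by
  constructor
  · intro h Q hQ
    exact (mem_valuationSubring_iff Q x).2 (h Q hQ)
  · intro h Q hQ
    exact (mem_valuationSubring_iff Q x).1 (h Q hQ)

theorem RegAt.add {s x y : F} (hx : RegAt K s x) (hy : RegAt K s y) : RegAt K s (x + y) := by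
  rw [regAt_iff_mem] at *
  exact fun Q hQ => add_mem (hx Q hQ) (hy Q hQ)

theorem RegAt.mul {s x y : F} (hx : RegAt K s x) (hy : RegAt K s y) : RegAt K s (x * y) := by
  rw [regAt_iff_mem] at *
  exact fun Q hQ => mul_mem (hx Q hQ) (hy Q hQ)

theorem RegAt.neg {s x : F} (hx : RegAt K s x) : RegAt K s (-x) := by
  rw [regAt_iff_mem] at *
  exact fun Q hQ => neg_mem (hx Q hQ)

theorem RegAt.sum {s : F} {ι : Type*} (T : Finset ι) (f : ι → F) (hf : ∀ i ∈ T, RegAt K s (f i)) :
    RegAt K s (∑ i ∈ T, f i) := by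
  rw [regAt_iff_mem]
  exact fun Q hQ => sum_mem fun i hi => (regAt_iff_mem s _).1 (hf i hi) Q hQ

theorem regAt_algebraMap (s : F) (c : K) : RegAt K s (algebraMap K F c) := by
  intro Q _
  rw [ord_algebraMap]

end Fermat.Agent.S40Lib
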