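import Fermat.Agent.S40.Reg.UpperJ

/-!
# S40, block (REG), (B5a): the differential `f dq/q = (f/θj) dj` of a cusp form
-/

set_option autoImplicit false
set_option synthInstance.maxHeartbeats 400000

open UpperHalfPlane AlgebraicCurve IntermediateField Polynomial ModularCurve CongruenceSubgroup
  CuspForm ModularFormClass

namespace Fermat.Agent.S40Lib

open Fermat.Agent.S18Lib Fermat.Agent.S24Lib Fermat.Agent.S28Lib Fermat.Agent.ESLib
  Fermat.Agent.S34Lib Fermat.Agent.FFLib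

noncomputable section

variable (M : ℕ) [NeZero M]

/-- the weight `j^4 (j - 1728)^3` -/
def wB : FB M := jBar M ^ 4 * (jBar M - 1728) ^ 3

def wT (A : ValuationSubring Qb) : FT A M := jT A M ^ 4 * (jT A M - 1728) ^ 3

/-- (B5a) = (RJ1), helper23.  `Reg/CuspJ.lean`.  The differential `f dq/q = (f/θj) dj`. -/
theorem cusp_diff_j (f : CuspForm (Gamma0 M) 2) (φ : PowerSeries Qb)
    (hφ : qExpansion 1 f = φ.map iotaC) :
    ∃ b : FB M, (b : LaurentSeries Qb) * thetaFun ((jBar M : FB M) : LaurentSeries Qb) =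
        HahnSeries.ofPowerSeries ℤ Qb φ ∧
      b ^ 6 * wB M ∈ riemannRochSpace (1 • poleDiv Qb (jBar M)) ∧
      (b ^ 6 * wB M) ^ M ∈ riemannRochSpace ((M - 1) • poleDiv Qb (jBar M)) := by
  refine ⟨⟨_, uJ_mem M f φ hφ⟩, ?_, rj_mem_L M _ f φ hφ rfl⟩
  show HahnSeries.ofPowerSeries ℤ Qb φ * uJ * thetaFun W7_jE = _
  rw [uJ, mul_assoc, inv_mul_cancel₀ RJ_theta_ne, mul_one]

end

end Fermat.Agent.S40Lib
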