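import Fermat.Agent.S40.Reg.CuspJ
import Fermat.Agent.S40.Reg.LatSer

/-!
# S40, block (REG), (C9): the reduction of the differential of a lattice element
-/

set_option autoImplicit false
set_option synthInstance.maxHeartbeats 400000
set_option linter.unusedSectionVars false

open UpperHalfPlane AlgebraicCurve IntermediateField Polynomial ModularCurve CongruenceSubgroup
  CuspForm ModularFormClass

namespace Fermat.Agent.S40Lib

open Fermat.Agent.S18Lib Fermat.Agent.S24Lib Fermat.Agent.S28Lib Fermat.Agent.ESLib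
  Fermat.Agent.S34Lib Fermat.Agent.FFLib

noncomputable section

variable (M : ℕ) [NeZero M]

theorem CR_theta_ne (κ : Type*) [Field κ] : thetaFun (jqModC κ) ≠ 0 := by
  intro h
  have h1 := congrArg (fun y => HahnSeries.coeff y (-1)) h
  simp only [thetaFun_coeff, coeff_jqModC_neg_one, HahnSeries.coeff_zero] at h1
  simp at h1

/-- `serR` commutes with coefficient maps -/
theorem coeffMap_serR {R R' : Type*} [CommRing R] [CommRing R'] (f : R →+* R')
    (e : intLattice M 2) : coeffMap f (serR M R e) = serR M R' e := by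
  rw [serR, serR, ModularCurve.coeffMap_ofPowerSeries,
    ← RingHom.comp_apply (PowerSeries.map f) (PowerSeries.map (Int.castRingHom R)),
    ← PowerSeries.map_comp, RingHom.ext_int (f.comp (Int.castRingHom R)) (Int.castRingHom R')]

variable (p : ℕ) [NeZero p] [hpF : Fact p.Prime] (hpM : ¬ p ∣ M)
variable (A : ValuationSubring Qb) (hA : A.LiesOverPrime p)

set_option maxHeartbeats 1000000 in
/-- (C9) `Reg/CuspRed.lean` the reduction of the differential of a lattice element -/
theorem exists_cusp_red (e : intLattice M 2) :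
    ∃ b : OC M hpM A hA,
      ((redC M hpM A hA b : FT A M) : LaurentSeries (kk A)) *
        thetaFun ((jT A M : FT A M) : LaurentSeries (kk A)) = serR M (kk A) e ∧
      ∀ Q : Place (kk A) (FT A M),
        (0 ≤ Q.ord (jT A M) → D2_ge Q 0 ((redC M hpM A hA b) ^ 6 * wT M A)) ∧
        (Q.ord (jT A M) < 0 →
          D2_ge Q (1 + Q.ord (jT A M)) ((redC M hpM A hA b) ^ 6 * wT M A)) := by
  have hk := isAlgClosed_kk A
  have hFt := isFF_FT A M
  have hF := isFF_bar M
  have hM : 1 ≤ M := Nat.one_le_iff_ne_zero.mpr (NeZero.ne M)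
  have hφ : qExpansion 1 ((e : intLattice M 2) : CuspForm (Gamma0 M) 2) =
      ((latSer M e).map (Int.castRingHom Qb)).map iotaC := by
    rw [latSer_spec, ← RingHom.comp_apply (PowerSeries.map iotaC), ← PowerSeries.map_comp,
      RingHom.ext_int (iotaC.comp (Int.castRingHom Qb)) (Int.castRingHom ℂ)]
  obtain ⟨b, hb1, hb2, hb3⟩ := cusp_diff_j M _ _ hφ
  have hs : cE A (thetaFun (jqModC A)) = thetaFun ((jBar M : FB M) : LaurentSeries Qb) := by
    rw [uj_coe_jBar M A, th_coeffMap]
    rfl
  have ha : cE A (serR M A e) = HahnSeries.ofPowerSeries ℤ Qb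
      ((latSer M e).map (Int.castRingHom Qb)) := coeffMap_serR M A.subtype e
  have hmul : ((b : FB M) : LaurentSeries Qb) * cE A (thetaFun (jqModC A)) =
      cE A (serR M A e) := by rw [hs, ha, hb1]
  have hsR : cR A (thetaFun (jqModC A)) = thetaFun ((jT A M : FT A M) : LaurentSeries (kk A)) := by
    rw [cR_def, ← th_coeffMap, coeffMap_jqModC]
    rfl
  have hbO : b ∈ OC M hpM A hA := by
    rw [mem_OC_iff, mem_gRing_iff]
    refine ⟨_, _, ?_, hmul⟩
    rw [hsR]
    exact CR_theta_ne (kk A)
  refine ⟨⟨b, hbO⟩, ?_, ?_⟩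
  · have h := redC_mul_eq M hpM A hA ⟨b, hbO⟩ hmul
    rw [hsR] at h
    rw [h]
    exact coeffMap_serR M (IsLocalRing.residue A) e
  · obtain ⟨xj, hxj, hr⟩ := RJ_exists_j M p hpM A hA
    set B : (RM M p hpM A hA).O := ⟨b, hbO⟩ with hB
    set y : (RM M p hpM A hA).O := B ^ 6 * (xj ^ 4 * (xj - 1728) ^ 3) with hy
    have hyF : ((y : (RM M p hpM A hA).O) : FB M) = b ^ 6 * wB M := by
      rw [hy, wB, ← hxj]; push_cast; rfl
    rw [← hyF, ← hxj] at hb2 hb3
    have h3 := red_ge_of_pow_mem hF hFt (RM M p hpM A hA) xj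
      (by rw [hr]; exact transcendental_jT A M)
      (by
        rw [hr, hxj, finrank_eq_index M]
        exact idx_le_finrank_FT M hpM A hA) y M hM hb2 hb3
    rw [hr] at h3
    have hyr : (RM M p hpM A hA).red y = (redC M hpM A hA ⟨b, hbO⟩) ^ 6 * wT M A := by
      rw [hy, map_mul, map_pow, map_mul, map_pow, map_pow, map_sub, hr, map_ofNat, wT]
      rfl
    rw [hyr] at h3
    exact h3

end

end Fermat.Agent.S40Lib
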