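import Fermat.Agent.S40.Reg.Basic

/-!
# S40/S44 REG, block (DLOG), (DL4): `d/ds` on `K(s)`
-/

set_option autoImplicit false

open AlgebraicCurve IntermediateField Polynomial Fermat.Agent.S24Lib Fermat.Agent.FFLib

namespace Fermat.Agent.S40Lib

variable {K F : Type*} [Field K] [Field F] [Algebra K F]

theorem DB_deriv_aeval (s : F) (D : Derivation K F F) (hD : D s = 1) (P : K[X]) :
    D (aeval s P) = aeval s (derivative P) := by
  rw [Derivation.map_aeval, hD, smul_eq_mul, mul_one]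

theorem DB_aeval_mem (s : F) (P : K[X]) : aeval s P ∈ K⟮s⟯ := by
  have h1 : aeval s P ∈ Algebra.adjoin K {s} := by
    rw [Algebra.adjoin_singleton_eq_range_aeval]
    exact ⟨P, rfl⟩
  exact IntermediateField.algebra_adjoin_le_adjoin K _ h1

theorem DB_deriv_div (D : Derivation K F F) (a b : F) (hb : b ≠ 0) :
    D (a / b) = (D a * b - a * D b) / b ^ 2 := by
  have h1 : D a = D (a / b * b) := by rw [div_mul_cancel₀ _ hb]
  rw [Derivation.leibniz, smul_eq_mul, smul_eq_mul] at h1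
  rw [eq_div_iff (pow_ne_zero 2 hb), h1]
  field_simp
  ring

theorem deriv_mem_base (s : F) (D : Derivation K F F) (hD : D s = 1) (r : F) (hr : r ∈ K⟮s⟯) :
    D r ∈ K⟮s⟯ := by
  obtain ⟨P, Q, hPQ⟩ := (mem_adjoin_simple_iff K r).1 hr
  by_cases hQ : aeval s Q = 0
  · rw [hPQ, hQ, div_zero, map_zero]
    exact zero_mem _
  · rw [hPQ, DB_deriv_div D _ _ hQ, DB_deriv_aeval s D hD, DB_deriv_aeval s D hD]
    exact div_mem (sub_mem (mul_mem (DB_aeval_mem s _) (DB_aeval_mem s _))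
      (mul_mem (DB_aeval_mem s _) (DB_aeval_mem s _))) (pow_mem (DB_aeval_mem s _) 2)

theorem DB_regAt_aeval (s : F) (P : K[X]) : RegAt K s (aeval s P) := by
  intro Q hQ
  exact wd_ord_nonneg (ze_ge_aeval Q hQ.le P)

theorem regAt_deriv_base [IsAlgClosed K] (h : IsFF K F) (s : F) (hs : Transcendental K s)
    (D : Derivation K F F) (hD : D s = 1) (r : F) (hr : r ∈ K⟮s⟯) (hreg : RegAt K s r) :
    RegAt K s (D r) := by
  by_cases hr0 : r = 0
  · rw [hr0, map_zero]
    intro Q _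
    simp
  have hs0 : s ≠ 0 := by
    rintro rfl
    exact hs isAlgebraic_zero
  obtain ⟨P, Q, hP, hQ, hPQ⟩ := uo_exists_frac (⟨r, hr⟩ : K⟮s⟯) (by
    intro h0
    exact hr0 (congrArg Subtype.val h0))
  change r = aeval s P / aeval s Q at hPQ
  obtain ⟨P1, hP1, hPn⟩ := exists_eq_pow_rootMultiplicity_mul_and_not_dvd P hP 0
  obtain ⟨Q1, hQ1, hQn⟩ := exists_eq_pow_rootMultiplicity_mul_and_not_dvd Q hQ 0
  set a := P.rootMultiplicity 0 with ha
  set b := Q.rootMultiplicity 0 with hb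
  have hP1c : P1.coeff 0 ≠ 0 := by
    rw [coeff_zero_eq_eval_zero]
    intro h0
    exact hPn (dvd_iff_isRoot.2 h0)
  have hQ1c : Q1.coeff 0 ≠ 0 := by
    rw [coeff_zero_eq_eval_zero]
    intro h0
    exact hQn (dvd_iff_isRoot.2 h0)
  have hPe : aeval s P = s ^ a * aeval s P1 := by
    conv_lhs => rw [hP1]
    simp
  have hQe : aeval s Q = s ^ b * aeval s Q1 := by
    conv_lhs => rw [hQ1]
    simp
  -- a place above `s = 0`
  obtain ⟨v, hv⟩ := exists_place_ord_pos h hs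
  obtain ⟨hP1v, hP1o⟩ := ze_ord_aeval v hv hP1c
  obtain ⟨hQ1v, hQ1o⟩ := ze_ord_aeval v hv hQ1c
  have hba : b ≤ a := by
    have h1 := hreg v hv
    rw [hPQ, hPe, hQe, div_eq_mul_inv,
      v.ord_mul (mul_ne_zero (pow_ne_zero _ hs0) hP1v)
        (inv_ne_zero (mul_ne_zero (pow_ne_zero _ hs0) hQ1v)),
      v.ord_inv, v.ord_mul (pow_ne_zero _ hs0) hP1v, v.ord_mul (pow_ne_zero _ hs0) hQ1v,
      hP1o, hQ1o, wa_ord_pow, wa_ord_pow] at h1
    by_contra hcon
    push Not at hcon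
    have h2 : (a : ℤ) + 1 ≤ b := by exact_mod_cast hcon
    nlinarith
  -- `r = N(s) / Q1(s)` with `N = X^(a-b) P1`
  set N : K[X] := X ^ (a - b) * P1 with hN
  have hrN : r = aeval s N / aeval s Q1 := by
    rw [hPQ, hPe, hQe, hN, map_mul, map_pow, aeval_X]
    have h3 : s ^ a = s ^ b * s ^ (a - b) := by rw [← pow_add, Nat.add_sub_cancel' hba]
    rw [h3]
    field_simp
  rw [hrN, DB_deriv_div D _ _ hQ1v, DB_deriv_aeval s D hD, DB_deriv_aeval s D hD]
  intro w hw
  obtain ⟨hQ1w, hQ1wo⟩ := ze_ord_aeval w hw hQ1c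
  set num : F := aeval s (derivative N) * aeval s Q1 - aeval s N * aeval s (derivative Q1) with hnum
  have hnumreg : 0 ≤ w.ord num := by
    have h4 : RegAt K s num := by
      rw [hnum, sub_eq_add_neg]
      exact ((DB_regAt_aeval s _).mul (DB_regAt_aeval s _)).add
        ((DB_regAt_aeval s _).mul (DB_regAt_aeval s _)).neg
    exact h4 w hw
  by_cases hn0 : num = 0
  · rw [hn0, zero_div]
    simp
  · rw [div_eq_mul_inv, w.ord_mul hn0 (inv_ne_zero (pow_ne_zero 2 hQ1w)), w.ord_inv, wa_ord_pow,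
      hQ1wo]
    simpa using hnumreg

end Fermat.Agent.S40Lib
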