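import Mathlib

/-!
# S40 (REG), block (DLOG), matrix lemma

`Tr (y * D u * u⁻¹)` is integral as soon as the multiplication matrices of `y`, `u`, `u⁻¹` in some
basis are integral and `D` preserves the integral elements of the base field.
-/

set_option autoImplicit false
set_option linter.unusedSectionVars false

namespace Fermat.Agent.S40Reg

open Matrix

variable {K L F ι : Type*} [CommRing K] [Field L] [Field F] [Algebra K F] [Algebra L F]
  [Fintype ι] [DecidableEq ι]

/-- the connection matrix of `D` in the basis `b` -/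
noncomputable def dmGam (b : Module.Basis ι L F) (D : Derivation K F F) : Matrix ι ι L :=
  Matrix.of fun i j => b.repr (D (b j)) i

theorem dm_D_basis (b : Module.Basis ι L F) (D : Derivation K F F) (j : ι) :
    D (b j) = ∑ i, dmGam b D i j • b i := by
  conv_lhs => rw [← b.sum_repr (D (b j))]
  rfl

theorem dm_mul_basis (b : Module.Basis ι L F) (u : F) (j : ι) :
    u * b j = ∑ i, Algebra.leftMulMatrix b u i j • b i := by
  conv_lhs => rw [← b.sum_repr (u * b j)]
  refine Finset.sum_congr rfl fun i _ => ?_
  rw [Algebra.leftMulMatrix_eq_repr_mul]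

theorem dm_leftMul_D (b : Module.Basis ι L F) (D : Derivation K F F) (u : F) (dU : Matrix ι ι L)
    (hdU : ∀ i j, D (algebraMap L F (Algebra.leftMulMatrix b u i j)) = algebraMap L F (dU i j)) :
    Algebra.leftMulMatrix b (D u) =
      dU + dmGam b D * Algebra.leftMulMatrix b u - Algebra.leftMulMatrix b u * dmGam b D := by
  set U := Algebra.leftMulMatrix b u with hU
  set G := dmGam b D with hG
  have key : ∀ j, D u * b j = ∑ k, (dU + G * U - U * G) k j • b k := by
    intro j
    have h1 : D (u * b j) = ∑ i, (dU i j • b i + U i j • D (b i)) := by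
      rw [dm_mul_basis b u j, map_sum]
      refine Finset.sum_congr rfl fun i _ => ?_
      rw [Algebra.smul_def, Derivation.leibniz, hdU, smul_eq_mul, smul_eq_mul, Algebra.smul_def,
        Algebra.smul_def]
      ring
    have h2 : D (u * b j) = u * D (b j) + b j * D u := by
      rw [Derivation.leibniz, smul_eq_mul, smul_eq_mul]
    have h3 : u * D (b j) = ∑ k, (U * G) k j • b k := by
      rw [dm_D_basis b D j, Finset.mul_sum]
      have : ∀ i, u * (G i j • b i) = ∑ k, (U k i * G i j) • b k := by
        intro i
        rw [mul_smul_comm, dm_mul_basis b u i, Finset.smul_sum]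
        refine Finset.sum_congr rfl fun k _ => ?_
        rw [smul_smul, mul_comm]
      rw [Finset.sum_congr rfl fun i _ => this i, Finset.sum_comm]
      refine Finset.sum_congr rfl fun k _ => ?_
      rw [← Finset.sum_smul, Matrix.mul_apply]
    have h4 : ∑ i, U i j • D (b i) = ∑ k, (G * U) k j • b k := by
      have : ∀ i, U i j • D (b i) = ∑ k, (G k i * U i j) • b k := by
        intro i
        rw [dm_D_basis b D i, Finset.smul_sum]
        refine Finset.sum_congr rfl fun k _ => ?_
        rw [smul_smul, mul_comm]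
      rw [Finset.sum_congr rfl fun i _ => this i, Finset.sum_comm]
      refine Finset.sum_congr rfl fun k _ => ?_
      rw [← Finset.sum_smul, Matrix.mul_apply]
    have h5 : D u * b j = D (u * b j) - u * D (b j) := by
      rw [h2]; ring
    rw [h5, h1, h3, Finset.sum_add_distrib, h4, ← Finset.sum_add_distrib, ← Finset.sum_sub_distrib]
    refine Finset.sum_congr rfl fun k _ => ?_
    rw [Matrix.sub_apply, Matrix.add_apply, sub_smul, add_smul]
  ext k j
  rw [Algebra.leftMulMatrix_eq_repr_mul, key j, b.repr_sum_self]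

theorem dm_trace_mem_of_entries (o : Subring L) (A : Matrix ι ι L) (hA : ∀ i j, A i j ∈ o) :
    A.trace ∈ o :=
  Subring.sum_mem _ fun i _ => hA i i

theorem dm_mul_mem_of_entries (o : Subring L) (A B : Matrix ι ι L) (hA : ∀ i j, A i j ∈ o)
    (hB : ∀ i j, B i j ∈ o) : ∀ i j, (A * B) i j ∈ o := by
  intro i j
  rw [Matrix.mul_apply]
  exact Subring.sum_mem _ fun k _ => o.mul_mem (hA i k) (hB k j)

/-- **matrix lemma** -/
theorem dm_trace_mem (o : Subring L) (b : Module.Basis ι L F) (D : Derivation K F F)
    (hD : ∀ r ∈ o, ∃ r' ∈ o, D (algebraMap L F r) = algebraMap L F r')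
    (u v y : F) (huv : u * v = 1)
    (hu : ∀ i j, Algebra.leftMulMatrix b u i j ∈ o)
    (hv : ∀ i j, Algebra.leftMulMatrix b v i j ∈ o)
    (hy : ∀ i j, Algebra.leftMulMatrix b y i j ∈ o) :
    Algebra.trace L F (y * (D u * v)) ∈ o := by
  choose dU hdUo hdU using fun i j => hD _ (hu i j)
  have h1 := dm_leftMul_D b D u (Matrix.of dU) (fun i j => hdU i j)
  set U := Algebra.leftMulMatrix b u with hU
  set V := Algebra.leftMulMatrix b v with hV
  set Y := Algebra.leftMulMatrix b y with hY
  set G := dmGam b D with hG
  have hUV : U * V = 1 := by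
    rw [hU, hV, ← map_mul, huv, map_one]
  have hVU : V * U = 1 := by
    rw [hU, hV, ← map_mul, mul_comm v u, huv, map_one]
  have hVY : V * Y = Y * V := by
    rw [hV, hY, ← map_mul, ← map_mul, mul_comm]
  rw [Algebra.trace_eq_matrix_trace b, map_mul, map_mul, h1]
  have h2 : (Y * ((Matrix.of dU + G * U - U * G) * V)).trace = (Y * (Matrix.of dU * V)).trace := by
    have e1 : Y * ((Matrix.of dU + G * U - U * G) * V)
        = Y * (Matrix.of dU * V) + Y * G * (U * V) - Y * U * G * V := by
      simp only [Matrix.mul_sub, Matrix.sub_mul, Matrix.mul_add, Matrix.add_mul, Matrix.mul_assoc]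
    rw [e1, hUV, Matrix.mul_one, Matrix.trace_sub, Matrix.trace_add]
    have e2 : (Y * U * G * V).trace = (Y * G).trace := by
      rw [Matrix.trace_mul_comm, ← Matrix.mul_assoc, ← Matrix.mul_assoc, hVY, Matrix.mul_assoc Y V U,
        hVU, Matrix.mul_one]
    rw [e2]
    ring
  rw [h2]
  exact dm_trace_mem_of_entries o _
    (dm_mul_mem_of_entries o _ _ hy (dm_mul_mem_of_entries o _ _ (fun i j => hdUo i j) hv))

end Fermat.Agent.S40Reg
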