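import Mathlib

/-!
# S40/S44 REG, block (DLOG), leaf (DL2): the matrix lemma `Tr(y Db) = tr([y] D[b])`
-/

set_option autoImplicit false

namespace Fermat.Agent.S40Lib

/-- `[D b] = D[b] + Γ [b] - [b] Γ`, `Γ` the matrix of `D` on the basis -/
theorem DL2_leftMulMatrix_deriv {k L E : Type*} [CommRing k] [Field L] [Field E] [Algebra k E]
    [Algebra L E] {n : Type*} [Fintype n] [DecidableEq n] (β : Module.Basis n L E)
    (D : Derivation k E E) (DL : L → L) (hDL : ∀ a : L, D (algebraMap L E a) = algebraMap L E (DL a))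
    (b : E) :
    Algebra.leftMulMatrix β (D b) =
      (Algebra.leftMulMatrix β b).map DL
        + (Matrix.of fun i j => β.repr (D (β j)) i) * Algebra.leftMulMatrix β b
        - Algebra.leftMulMatrix β b * (Matrix.of fun i j => β.repr (D (β j)) i) := by
  ext i j
  have h1 : b * β j = ∑ l, Algebra.leftMulMatrix β b l j • β l := by
    simp only [Algebra.leftMulMatrix_eq_repr_mul]
    exact (β.sum_repr (b * β j)).symm
  have h2 : D (b * β j) = b * D (β j) + β j * D b := by
    rw [D.leibniz]; rfl
  have h3 : D (∑ l, Algebra.leftMulMatrix β b l j • β l)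
      = ∑ l, Algebra.leftMulMatrix β b l j • D (β l)
        + ∑ l, DL (Algebra.leftMulMatrix β b l j) • β l := by
    rw [map_sum, ← Finset.sum_add_distrib]
    refine Finset.sum_congr rfl fun l _ => ?_
    rw [Algebra.smul_def, D.leibniz, hDL, smul_eq_mul, smul_eq_mul, Algebra.smul_def,
      Algebra.smul_def, mul_comm (β l)]
  have h4 : D b * β j = ∑ l, DL (Algebra.leftMulMatrix β b l j) • β l
      + ∑ l, Algebra.leftMulMatrix β b l j • D (β l) - b * D (β j) := by
    rw [h1, h3] at h2
    rw [mul_comm (D b), eq_sub_iff_add_eq, add_comm (β j * D b), ← h2, add_comm]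
  rw [Algebra.leftMulMatrix_eq_repr_mul, h4, map_sub, map_add, Finsupp.sub_apply,
    Finsupp.add_apply, β.repr_sum_self, ← Algebra.leftMulMatrix_mulVec_repr, map_sum,
    Finsupp.finsetSum_apply]
  simp only [map_smul, Finsupp.smul_apply, smul_eq_mul, Matrix.sub_apply, Matrix.add_apply,
    Matrix.map_apply, Matrix.mul_apply, Matrix.of_apply, Matrix.mulVec, dotProduct]
  congr 2
  exact Finset.sum_congr rfl fun l _ => mul_comm _ _

theorem trace_mul_deriv {k L E : Type*} [CommRing k] [Field L] [Field E] [Algebra k E]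
    [Algebra L E] {n : Type*} [Fintype n] [DecidableEq n] (β : Module.Basis n L E)
    (D : Derivation k E E) (DL : L → L) (hDL : ∀ a : L, D (algebraMap L E a) = algebraMap L E (DL a))
    (y b : E) :
    Algebra.trace L E (y * D b) =
      Matrix.trace (Algebra.leftMulMatrix β y * (Algebra.leftMulMatrix β b).map DL) := by
  rw [Algebra.trace_eq_matrix_trace β, map_mul, DL2_leftMulMatrix_deriv β D DL hDL b]
  set Y := Algebra.leftMulMatrix β y
  set B := Algebra.leftMulMatrix β b
  set Γ : Matrix n n L := Matrix.of fun i j => β.repr (D (β j)) i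
  have hcomm : B * Y = Y * B := by
    rw [← map_mul, ← map_mul, mul_comm]
  have h : Matrix.trace (Y * (Γ * B)) = Matrix.trace (Y * (B * Γ)) := by
    rw [← Matrix.mul_assoc, Matrix.trace_mul_comm (Y * Γ) B, ← Matrix.mul_assoc, hcomm,
      Matrix.mul_assoc]
  rw [mul_sub, mul_add, Matrix.trace_sub, Matrix.trace_add, h, add_sub_cancel_right]

end Fermat.Agent.S40Lib
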