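import Fermat.Agent.S40.Reg.LocalBasis
import Fermat.Agent.S40.Reg.MatTrace
import Fermat.Agent.S40.Reg.DerivBase

/-!
# S40/S44 REG, block (DLOG), (DL5): `Tr (y * D b)` is regular if `y` and `b` are
-/

set_option autoImplicit false

open AlgebraicCurve IntermediateField Polynomial Fermat.Agent.S24Lib Fermat.Agent.FFLib

namespace Fermat.Agent.S40Lib

variable {K F : Type*} [Field K] [Field F] [Algebra K F]

theorem regAt_trace_mul_deriv [IsAlgClosed K] (h : IsFF K F) (L : IntermediateField K F)
    [FiniteDimensional L F] [Algebra.IsSeparable L F] (s : F) (hs : Transcendental K s)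
    (hL : L = K⟮s⟯) (D : Derivation K F F) (hD : D s = 1) (y b : F)
    (hy : RegAt K s y) (hb : RegAt K s b) :
    RegAt K s ((Algebra.trace L F (y * D b) : L) : F) := by
  classical
  obtain ⟨β, hβ, hrep⟩ := exists_local_basis h L s hs hL
  have hmem : ∀ a : L, D (a : F) ∈ L := by
    intro a
    have h1 : (a : F) ∈ K⟮s⟯ := by rw [← hL]; exact a.2
    have h2 := deriv_mem_base s D hD (a : F) h1
    rwa [← hL] at h2
  set DL : L → L := fun a => ⟨D (a : F), hmem a⟩ with hDLdef
  have hDL : ∀ a : L, D (algebraMap L F a) = algebraMap L F (DL a) := fun a => rfl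
  rw [trace_mul_deriv β D DL hDL y b, ← mem_regSub, Matrix.trace]
  refine Subring.sum_mem _ fun i _ => ?_
  rw [Matrix.diag_apply, Matrix.mul_apply]
  refine Subring.sum_mem _ fun j _ => ?_
  refine Subring.mul_mem _ ?_ ?_
  · rw [Algebra.leftMulMatrix_eq_repr_mul, mem_regSub]
    exact hrep _ (hy.mul (hβ j)) i
  · rw [Matrix.map_apply, Algebra.leftMulMatrix_eq_repr_mul, mem_regSub]
    have h1 : ((β.repr (b * β i) j : L) : F) ∈ K⟮s⟯ := by rw [← hL]; exact (β.repr (b * β i) j).2
    exact regAt_deriv_base h s hs D hD _ h1 (hrep _ (hb.mul (hβ i)) j)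

end Fermat.Agent.S40Lib
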