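import Fermat.Agent.S40.Reg.Basic
import Fermat.Agent.S40.Reg.TraceDeriv

/-!
# S40/S44 REG, block (DLOG), leaf (DL6): `Tr(y du/u)` is regular at the zeros of `s` if
`p ∣ ord_Q u` there
-/

set_option autoImplicit false

open AlgebraicCurve IntermediateField Polynomial Fermat.Agent.S24Lib Fermat.Agent.FFLib

namespace Fermat.Agent.S40Lib

variable {K F : Type*} [Field K] [Field F] [Algebra K F]

/-- `D (g ^ p) = 0` in characteristic `p` -/
theorem DL6_deriv_pow (p : ℕ) [CharP K p] (D : Derivation K F F) (g : F) : D (g ^ p) = 0 := by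
  haveI : CharP F p := charP_of_injective_algebraMap (algebraMap K F).injective p
  rw [D.leibniz_pow, nsmul_eq_mul, CharP.cast_eq_zero, zero_mul]

/-- the logarithmic derivative does not change under multiplication by a `p`-th power -/
theorem DL6_dlog_mul_pow (p : ℕ) [CharP K p] (D : Derivation K F F) (u g : F) (hg : g ≠ 0) :
    D (u * g ^ p) / (u * g ^ p) = D u / u := by
  rw [D.leibniz, DL6_deriv_pow p D g, smul_zero, zero_add, smul_eq_mul,
    mul_comm u, mul_div_mul_left _ _ (pow_ne_zero p hg)]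

theorem regAt_trace_dlog [IsAlgClosed K] (p : ℕ) [Fact p.Prime] [CharP K p] (h : IsFF K F)
    (L : IntermediateField K F)
    [FiniteDimensional L F] [Algebra.IsSeparable L F] (s : F) (hs : Transcendental K s)
    (hL : L = K⟮s⟯) (D : Derivation K F F) (hD : D s = 1) (y u : F) (hu : u ≠ 0)
    (hy : RegAt K s y) (hord : ∀ Q : Place K F, 0 < Q.ord s → (p : ℤ) ∣ Q.ord u) :
    RegAt K s ((Algebra.trace L F (y * (D u / u)) : L) : F) := by
  classical
  intro Q0 hQ0
  have hp0 : (p : ℤ) ≠ 0 := by exact_mod_cast (Fact.out : p.Prime).ne_zero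
  set S : Finset (Place K F) := (finite_ord_ne_zero h s).toFinset with hS
  have hmemS : ∀ Q : Place K F, 0 < Q.ord s → Q ∈ S := by
    intro Q hQ
    rw [hS, Set.Finite.mem_toFinset]
    exact hQ.ne'
  obtain ⟨g, hg⟩ := weak_approximation S (fun _ => 0) (fun Q => - (Q.ord u / (p : ℤ)))
  have hg0 : g ≠ 0 := by simpa using (hg Q0 (hmemS Q0 hQ0)).1
  have hgord : ∀ Q : Place K F, 0 < Q.ord s → (p : ℤ) * Q.ord g = - Q.ord u := by
    intro Q hQ
    have h1 := (hg Q (hmemS Q hQ)).2
    rw [sub_zero] at h1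
    rw [h1, mul_neg, Int.mul_ediv_cancel' (hord Q hQ)]
  set v : F := u * g ^ p with hv
  have hv0 : v ≠ 0 := mul_ne_zero hu (pow_ne_zero p hg0)
  have hvord : ∀ Q : Place K F, 0 < Q.ord s → Q.ord v = 0 := by
    intro Q hQ
    rw [hv, Q.ord_mul hu (pow_ne_zero p hg0), wa_ord_pow, hgord Q hQ, add_neg_cancel]
  have hvreg : RegAt K s v := fun Q hQ => (hvord Q hQ).ge
  have hvinv : RegAt K s v⁻¹ := fun Q hQ => by rw [Q.ord_inv, hvord Q hQ, neg_zero]
  have key := regAt_trace_mul_deriv h L s hs hL D hD (y * v⁻¹) v (hy.mul hvinv) hvreg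
  have e : y * (D u / u) = y * v⁻¹ * D v := by
    rw [← DL6_dlog_mul_pow p D u g hg0, ← hv, div_eq_mul_inv]
    ring
  rw [e]
  exact key Q0 hQ0

end Fermat.Agent.S40Lib
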