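import Fermat.Agent.S40.Reg.Basic
import Fermat.Agent.S40.Reg.TraceDlog

/-!
# S40/S44 REG, block (DLOG), leaf (DL7): the trace conditions for `du/u`, `p ∣ div u`
-/

set_option autoImplicit false

open AlgebraicCurve IntermediateField Polynomial Fermat.Agent.S24Lib Fermat.Agent.FFLib

namespace Fermat.Agent.S40Lib

variable {K F : Type*} [Field K] [Field F] [Algebra K F]

theorem DL7_adjoin_sub (t : F) (c : K) : K⟮t⟯ = K⟮t - algebraMap K F c⟯ := by
  apply le_antisymm
  · rw [adjoin_simple_le_iff]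
    have h1 : (t - algebraMap K F c) + algebraMap K F c ∈ K⟮t - algebraMap K F c⟯ :=
      add_mem (mem_adjoin_simple_self K _) (IntermediateField.algebraMap_mem _ c)
    rwa [sub_add_cancel] at h1
  · rw [adjoin_simple_le_iff]
    exact sub_mem (mem_adjoin_simple_self K _) (IntermediateField.algebraMap_mem _ c)

theorem DL7_adjoin_inv (t : F) : K⟮t⟯ = K⟮t⁻¹⟯ := by
  apply le_antisymm
  · rw [adjoin_simple_le_iff]
    have h1 : (t⁻¹)⁻¹ ∈ K⟮t⁻¹⟯ := inv_mem (mem_adjoin_simple_self K _)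
    rwa [inv_inv] at h1
  · rw [adjoin_simple_le_iff]
    exact inv_mem (mem_adjoin_simple_self K _)

theorem DL7_transcendental_sub {t : F} (ht : Transcendental K t) (c : K) :
    Transcendental K (t - algebraMap K F c) := by
  intro hs
  apply ht
  have : t = (t - algebraMap K F c) + algebraMap K F c := by ring
  rw [this]
  exact hs.add (isAlgebraic_algebraMap c)

theorem dlog_traces [IsAlgClosed K] (p : ℕ) [Fact p.Prime] [CharP K p] (h : IsFF K F) {t : F}
    (ht : Transcendental K t) [Algebra.IsSeparable K⟮t⟯ F] (D : Derivation K F F) (hD : D t = 1)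
    (u : F) (hu : u ≠ 0) (hord : ∀ Q : Place K F, (p : ℤ) ∣ Q.ord u) :
    (∀ y : F, (∀ Q : Place K F, 0 ≤ Q.ord t → 0 ≤ Q.ord y) →
      ∀ Q : Place K F, 0 ≤ Q.ord t →
        0 ≤ Q.ord ((Algebra.trace K⟮t⟯ F (y * (D u / u)) : K⟮t⟯) : F)) ∧
    (∀ y : F, (∀ Q : Place K F, Q.ord t < 0 → 0 ≤ Q.ord y) →
      ∀ Q : Place K F, Q.ord t < 0 →
        D2_ge Q (-2 * Q.ord t) ((Algebra.trace K⟮t⟯ F (y * (D u / u)) : K⟮t⟯) : F)) := by
  have hfd : FiniteDimensional K⟮t⟯ F := h.finiteDimensional ht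
  have ht0 : t ≠ 0 := by
    rintro rfl
    exact ht isAlgebraic_zero
  constructor
  · intro y hy Q₀ hQ₀
    obtain ⟨c, hc⟩ := exists_residue h Q₀ hQ₀
    have hc' : 0 < Q₀.ord (t - algebraMap K F c) := by
      rcases hc with hc | hc
      · exact absurd (hc ▸ isAlgebraic_algebraMap c) ht
      · exact hc
    have hDs : D (t - algebraMap K F c) = 1 := by
      rw [map_sub, hD, D.map_algebraMap, sub_zero]
    have hy' : RegAt K (t - algebraMap K F c) y := by
      intro Q hQ
      apply hy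
      have h3 : t = (t - algebraMap K F c) + algebraMap K F c := by ring
      have h4 := min_le_ord_add Q (f := t - algebraMap K F c) (g := algebraMap K F c)
        (by rw [← h3]; exact ht0)
      rw [← h3, ord_algebraMap] at h4
      have : 0 ≤ min (Q.ord (t - algebraMap K F c)) 0 := le_min hQ.le le_rfl
      omega
    exact regAt_trace_dlog p h K⟮t⟯ (t - algebraMap K F c) (DL7_transcendental_sub ht c)
      (DL7_adjoin_sub t c) D hDs y u hu hy' (fun Q _ => hord Q) Q₀ hc'
  · intro y hy Q₀ hQ₀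
    set D' : Derivation K F F := (-t ^ 2) • D with hD'
    have hDs : D' t⁻¹ = 1 := by
      rw [hD', Derivation.smul_apply, Derivation.leibniz_inv, hD, smul_eq_mul, smul_eq_mul]
      field_simp
    have hy' : RegAt K t⁻¹ y := by
      intro Q hQ
      apply hy
      rw [Q.ord_inv] at hQ
      omega
    have key := regAt_trace_dlog p h K⟮t⟯ t⁻¹ (dg_transcendental_inv ht)
      (DL7_adjoin_inv t) D' hDs y u hu hy' (fun Q _ => hord Q) Q₀
      (by rw [Q₀.ord_inv]; omega)
    set τ : K⟮t⟯ := -(⟨t, mem_adjoin_simple_self K t⟩ : K⟮t⟯) ^ 2 with hτ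
    have e : y * (D' u / u) = τ • (y * (D u / u)) := by
      rw [hD', Derivation.smul_apply, smul_eq_mul, Algebra.smul_def]
      have : algebraMap K⟮t⟯ F τ = -t ^ 2 := rfl
      rw [this]
      ring
    rw [e, map_smul, smul_eq_mul] at key
    by_cases hT : ((Algebra.trace K⟮t⟯ F (y * (D u / u)) : K⟮t⟯) : F) = 0
    · exact Or.inl hT
    · right
      have e2 : ((τ * Algebra.trace K⟮t⟯ F (y * (D u / u)) : K⟮t⟯) : F)
          = -t ^ 2 * ((Algebra.trace K⟮t⟯ F (y * (D u / u)) : K⟮t⟯) : F) := rfl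
      rw [e2, Q₀.ord_mul (neg_ne_zero.2 (pow_ne_zero 2 ht0)) hT, D2.ord_neg, wa_ord_pow] at key
      push_cast at key
      omega

end Fermat.Agent.S40Lib
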