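import Fermat.Agent.Lib.FF.TraceFunctional

/-!
# S40/S44 REG, block (DLOG), (DL1): `exists_ell_le_of_differentials` with trace hypotheses
-/

set_option autoImplicit false

open AlgebraicCurve IntermediateField Polynomial Fermat.Agent.S24Lib Fermat.Agent.FFLib

namespace Fermat.Agent.S40Lib

variable {K F : Type*} [Field K] [Field F] [Algebra K F]

theorem exists_ell_le_of_traces [IsAlgClosed K] (h : IsFF K F) {t : F}
    (ht : Transcendental K t) [Algebra.IsSeparable K⟮t⟯ F] {γ : ℕ} (ω : Fin γ → F)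
    (hω : LinearIndependent K ω)
    (hfin : ∀ i (y : F), (∀ Q : Place K F, 0 ≤ Q.ord t → 0 ≤ Q.ord y) →
      ∀ Q : Place K F, 0 ≤ Q.ord t → 0 ≤ Q.ord ((Algebra.trace K⟮t⟯ F (y * ω i) : K⟮t⟯) : F))
    (hinf : ∀ i (y : F), (∀ Q : Place K F, Q.ord t < 0 → 0 ≤ Q.ord y) →
      ∀ Q : Place K F, Q.ord t < 0 →
        D2_ge Q (-2 * Q.ord t) ((Algebra.trace K⟮t⟯ F (y * ω i) : K⟮t⟯) : F)) (c : ℤ) :
    ∃ E : Divisor K F, c ≤ Divisor.degree E ∧ (ell E : ℤ) ≤ Divisor.degree E + 1 - γ := by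
  classical
  have hfd : FiniteDimensional K⟮t⟯ F := h.finiteDimensional ht
  have ht0 : t ≠ 0 := by
    rintro rfl
    exact ht isAlgebraic_zero
  obtain ⟨res, hres1, hres2, hres3⟩ := exists_res h ht
  -- the functional `z ↦ res (Tr z)`
  set ψ : F →ₗ[K] K :=
    res ∘ₗ (K⟮t⟯.val.toLinearMap) ∘ₗ ((Algebra.trace K⟮t⟯ F).restrictScalars K) with hψ
  have hψa : ∀ z, ψ z = res ((Algebra.trace K⟮t⟯ F z : K⟮t⟯) : F) := fun z => rfl
  set Λ : F →ₗ[K] (Fin γ → K) := LinearMap.pi (fun i => ψ ∘ₗ LinearMap.mulRight K (ω i)) with hΛ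
  have hΛa : ∀ y i, Λ y i = ψ (y * ω i) := fun y i => rfl
  set S : Finset (Place K F) := (finite_ord_ne_zero h t).toFinset.filter (fun Q => Q.ord t < 0)
    with hS
  have hSmem : ∀ Q, Q ∈ S ↔ Q.ord t < 0 := by
    intro Q
    simp only [hS, Finset.mem_filter, Set.Finite.mem_toFinset, Set.mem_ofPred_eq]
    constructor
    · exact fun hh => hh.2
    · exact fun hh => ⟨by omega, hh⟩
  have hSne : S.Nonempty := by
    obtain ⟨Q₁, hQ₁⟩ := exists_place_ord_pos h (dg_transcendental_inv ht)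
    rw [Q₁.ord_inv] at hQ₁
    exact ⟨Q₁, (hSmem Q₁).mpr (by omega)⟩
  refine exists_ell_le_of_functionals h S hSne Λ ?_ ?_ ?_ c
  · -- surjectivity
    by_contra hns
    have hlt : LinearMap.range Λ < ⊤ := lt_top_iff_ne_top.mpr (fun htop => hns (LinearMap.range_eq_top.mp htop))
    obtain ⟨φ, hφ0, hφ⟩ := Submodule.exists_le_ker_of_lt_top _ hlt
    set a : Fin γ → K := fun i => φ (fun j => if i = j then 1 else 0) with ha
    have hφa : ∀ x : Fin γ → K, φ x = ∑ i, x i * a i := by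
      intro x
      rw [LinearMap.pi_apply_eq_sum_univ φ x]
      simp [ha, smul_eq_mul]
    have ha0 : ¬ ∀ i, a i = 0 := by
      intro hall
      apply hφ0
      apply LinearMap.ext
      intro x
      rw [hφa]
      simp [hall]
    set ω' : F := ∑ i, a i • ω i with hω'
    have hω'0 : ω' ≠ 0 := by
      intro h0
      exact ha0 (fun i => (Fintype.linearIndependent_iff.mp hω) a h0 i)
    obtain ⟨y₁, hy₁⟩ := Algebra.trace_surjective K⟮t⟯ F 1
    set y : F := y₁ * (t * ω')⁻¹ with hy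
    have h1 : φ (Λ y) = 0 := hφ ⟨y, rfl⟩
    rw [hφa] at h1
    have h2 : ∑ i, Λ y i * a i = ψ (y * ω') := by
      rw [hω', Finset.mul_sum, map_sum]
      refine Finset.sum_congr rfl fun i _ => ?_
      rw [hΛa, mul_smul_comm, map_smul, smul_eq_mul, mul_comm]
    rw [h2, hψa] at h1
    have h3 : y * ω' = (AdjoinSimple.gen K t)⁻¹ • y₁ := by
      rw [Algebra.smul_def]
      have : algebraMap K⟮t⟯ F (AdjoinSimple.gen K t)⁻¹ = t⁻¹ := by
        rw [map_inv₀]; simp
      rw [this, hy]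
      field_simp
    rw [h3, map_smul, hy₁, smul_eq_mul, mul_one] at h1
    have h4 : (((AdjoinSimple.gen K t)⁻¹ : K⟮t⟯) : F) = t⁻¹ := by simp
    rw [h4, hres1] at h1
    exact one_ne_zero h1
  · intro y hy
    ext i
    rw [hΛa, hψa, Pi.zero_apply]
    apply hres3
    intro Q hQ
    exact hinf i y (fun Q' hQ' => hy Q' ((hSmem Q').mpr hQ')) Q hQ
  · intro y hy
    ext i
    rw [hΛa, hψa, Pi.zero_apply]
    apply hres2
    intro Q hQ
    exact hfin i y
      (fun Q' hQ' => hy Q' (fun hmem => by have := (hSmem Q').mp hmem; omega)) Q hQ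

end Fermat.Agent.S40Lib
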