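import Fermat.Agent.S40.Reg.Basic
import Fermat.Agent.S40.Reg.Traces
import Fermat.Agent.S40.Reg.DlogTraces
import Fermat.Agent.Lib.FF.Riemann

/-!
# S40/S44 REG, block (DLOG), leaf (DL8): `du/u` is in the span of `genus` many independent regular
differentials as soon as `p ∣ div u`
-/

set_option autoImplicit false

open AlgebraicCurve IntermediateField Polynomial Fermat.Agent.S24Lib Fermat.Agent.FFLib

namespace Fermat.Agent.S40Lib

variable {K F : Type*} [Field K] [Field F] [Algebra K F]

/-- **(DLOG)** if `ω i dt` (`i < γ`) are independent "tamely regular" differentials, `γ ≥` genus,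
then `du/u` is a combination of them as soon as `p ∣ div u`. -/
theorem dlog_mem_span [IsAlgClosed K] (p : ℕ) [Fact p.Prime] [CharP K p] (h : IsFF K F) {t : F}
    (ht : Transcendental K t) [Algebra.IsSeparable K⟮t⟯ F] (D : Derivation K F F) (hD : D t = 1)
    {γ : ℕ} (ω : Fin γ → F) (hω : LinearIndependent K ω)
    (hfin : ∀ i (Q : Place K F) (c : K), 0 < Q.ord (t - algebraMap K F c) →
      D2_ge Q (1 - Q.ord (t - algebraMap K F c)) (ω i))
    (hinf : ∀ i (Q : Place K F), Q.ord t < 0 → D2_ge Q (1 - Q.ord t) (ω i))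
    (hg : genusR K F ≤ γ)
    (u : F) (hu : u ≠ 0) (hord : ∀ Q : Place K F, (p : ℤ) ∣ Q.ord u) :
    D u / u ∈ Submodule.span K (Set.range ω) := by
  have hfd : FiniteDimensional K⟮t⟯ F := h.finiteDimensional ht
  by_contra hne
  have hli : LinearIndependent K (Fin.cons (D u / u) ω : Fin (γ + 1) → F) :=
    linearIndependent_finCons.2 ⟨hω, hne⟩
  obtain ⟨h1, h2⟩ := dlog_traces p h ht D hD u hu hord
  obtain ⟨E, -, hE⟩ := exists_ell_le_of_traces h ht (Fin.cons (D u / u) ω : Fin (γ + 1) → F) hli
    (by
      intro i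
      refine Fin.cases ?_ (fun i => ?_) i
      · simpa using h1
      · intro y hy Q hQ
        simpa using tf_trace_fin h ht y (ω i) (hfin i) hy Q hQ)
    (by
      intro i
      refine Fin.cases ?_ (fun i => ?_) i
      · simpa using h2
      · intro y hy Q hQ
        simpa using tf_trace_inf h ht y (ω i) (hinf i) hy Q hQ) 0
  have h3 := riemann_inequality h E
  have h4 : (genusR K F : ℤ) ≤ γ := by exact_mod_cast hg
  push_cast at hE
  omega

end Fermat.Agent.S40Lib
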