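import Fermat.Agent.S37.BaseOps
import Fermat.Agent.S18.GoodX
import Fermat.Agent.S18.DegLe

/-!
# S40 / S44, block (REG), (GEN): the genus does not go up under reduction
-/

set_option autoImplicit false

open AlgebraicCurve IntermediateField Polynomial Fermat.Agent.S24Lib Fermat.Agent.FFLib

namespace Fermat.Agent.S40Lib

open Fermat.Agent.S18Lib Fermat.Agent.S37Lib

/-! ### (GEN) `Reg/GenusLe.lean` : the genus does not go up under reduction -/

theorem genusR_le_of_redData {K k F Ft : Type*} [Field K] [Field k] [Field F] [Algebra K F]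
    [Field Ft] [Algebra k Ft] [IsAlgClosed K] [IsAlgClosed k]
    (hF : IsFF K F) (hFt : IsFF k Ft)
    {A : ValuationSubring K} {resK : A →+* k} (hres : Function.Surjective resK)
    (R : Fermat.Agent.S18Lib.RedData A resK F Ft) (g : ℕ)
    (hlow : ∀ E : Divisor K F, Divisor.degree E + 1 - (g : ℤ) ≤ (FFLib.ell E : ℤ)) :
    genusR k Ft ≤ g := by
  classical
  obtain ⟨c, hc⟩ := riemann_equality hFt
  obtain ⟨P⟩ := exists_place hF
  set N : ℤ := max 1 (max (c + g) (g + 1)) with hN
  set E : Divisor K F := Finsupp.single P N with hEdef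
  have hE : Divisor.degree E = N := degree_single' hF P N
  have hN1 : 1 ≤ Divisor.degree E := by rw [hE]; exact le_max_left _ _
  have hN2 : c + g ≤ Divisor.degree E := by
    rw [hE]; exact le_trans (le_max_left _ _) (le_max_right _ _)
  have hN3 : (g : ℤ) + 1 ≤ Divisor.degree E := by
    rw [hE]; exact le_trans (le_max_right _ _) (le_max_right _ _)
  have hlowE := hlow E
  have hfdU : FiniteDimensional K (riemannRochSpace E) := finiteDimensional_L hF E
  have hfdV : FiniteDimensional k (redSpace R hres (riemannRochSpace E)) :=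
    finiteDimensional_redSpace R hres _
  set V := redSpace R hres (riemannRochSpace E) with hVdef
  have hdimV : Module.finrank k V = FFLib.ell E := finrank_redSpace R hres _
  have hVbot : V ≠ ⊥ := by
    intro h0
    rw [h0, finrank_bot] at hdimV
    omega
  obtain ⟨BB, hle, hex⟩ := exists_isBase hF hFt hres R E hVbot
  have hfdBB : FiniteDimensional k (riemannRochSpace BB) := finiteDimensional_L hFt BB
  have h1 : Module.finrank k V ≤ FFLib.ell BB := Submodule.finrank_mono hle
  have hdeg0 : 0 ≤ Divisor.degree BB := by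
    by_contra hneg
    push Not at hneg
    have := ell_eq_zero_of_degree_neg hFt hneg
    omega
  have h2 := ell_le_degree_add_one hFt hdeg0
  have h3 : c ≤ Divisor.degree BB := by omega
  have h4 := hc BB h3
  -- two generic elements
  obtain ⟨b, hbV, hb0, -⟩ := gx_generic V hVbot BB hle hex ∅
  obtain ⟨a, haV, ha0, haT⟩ := gx_generic V hVbot BB hle hex (divOf k b + BB).support
  have hpole := gx_poleDiv_div hFt BB (hle haV) (hle hbV) ha0 hb0 haT
  have hdegpole : Divisor.degree (poleDiv k (a / b)) = Divisor.degree BB := by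
    rw [hpole, map_add, degree_divOf hFt, zero_add]
  have htr : Transcendental k (a / b) := gx_transcendental_of_degree_pos hFt (by omega)
  have hfin : (Module.finrank k⟮a / b⟯ Ft : ℤ) = Divisor.degree BB := by
    rw [← degree_poleDiv hFt htr, hdegpole]
  -- lifts
  obtain ⟨α, hαU, hα⟩ := haV
  obtain ⟨β, hβU, hβ⟩ := hbV
  have hβu : IsUnit β := R.isUnit_of_red_ne_zero β (by rw [hβ]; exact hb0)
  obtain ⟨βu, rfl⟩ := hβu
  set x : R.O := α * ((βu⁻¹ : R.Oˣ) : R.O) with hx
  have hredx : R.red x = a / b := by
    rw [hx, map_mul, hα, div_eq_mul_inv]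
    congr 1
    apply eq_inv_of_mul_eq_one_left
    rw [← hβ, ← map_mul, Units.inv_mul, map_one]
  have hxF : ((x : R.O) : F) = (α : F) / ((βu : R.O) : F) := by
    rw [hx, div_eq_mul_inv]
    show (α : F) * (((βu⁻¹ : R.Oˣ) : R.O) : F) = _
    congr 1
    apply eq_inv_of_mul_eq_one_left
    have := congrArg (Subtype.val) (Units.inv_mul βu)
    exact this
  have hα0 : (α : F) ≠ 0 := by
    intro h0
    apply ha0
    have h5 : α = 0 := Subtype.ext h0
    rw [← hα, h5, map_zero]
  have hβ0 : ((βu : R.O) : F) ≠ 0 := by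
    intro h0
    apply hb0
    have h5 : (βu : R.O) = 0 := Subtype.ext h0
    rw [← hβ, h5, map_zero]
  have htr' : Transcendental k (R.red x) := by rw [hredx]; exact htr
  have hxtr : Transcendental K ((x : R.O) : F) := gx_transcendental_of_red R x htr'
  have hle2 := gx_degree_mono hF (gx_poleDiv_div_le hF E hαU hβU hα0 hβ0)
  rw [map_add, degree_divOf hF, zero_add, ← hxF, degree_poleDiv hF hxtr] at hle2
  have hle3 := finrank_red_le hF hFt R x htr'
  rw [hredx] at hle3
  have hle4 : (Module.finrank k⟮a / b⟯ Ft : ℤ) ≤ (Module.finrank K⟮((x : R.O) : F)⟯ F : ℤ) := by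
    exact_mod_cast hle3
  have hfinal : (genusR k Ft : ℤ) ≤ g := by omega
  exact_mod_cast hfinal

end Fermat.Agent.S40Lib
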