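import Fermat.Agent.S40.Reg.LatSer
import Fermat.Agent.SMO.Eigenvector

/-!
# S40 / S44, block (REG), (C11): the rank of the lattice
-/

set_option autoImplicit false
set_option synthInstance.maxHeartbeats 400000
set_option linter.unusedSectionVars false

open UpperHalfPlane AlgebraicCurve IntermediateField Polynomial ModularCurve CongruenceSubgroup CuspForm
  ModularFormClass

namespace Fermat.Agent.S40Lib

open Fermat.Agent.S18Lib Fermat.Agent.S24Lib Fermat.Agent.S28Lib Fermat.Agent.ESLib
  Fermat.Agent.S34Lib Fermat.Agent.FFLib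

noncomputable section

section Ser

variable (M : ℕ) [NeZero M]

/-- (C11) `Reg/LatRank.lean` (S23 integral structure: the lattice spans; `SMOLib.sum_smul_ne_zero`:
a `ℤ`-basis is `ℂ`-independent) -/
theorem finrank_intLattice :
    Module.finrank ℤ (intLattice M 2) = Module.finrank ℂ (CuspForm (Gamma0 M) 2) := by
  have := intLattice.moduleFinite M
  have := intLattice.moduleFree M
  let b := Module.finBasis ℤ (intLattice M 2)
  have hli : LinearIndependent ℂ
      (fun i => ((b i : intLattice M 2) : CuspForm (Gamma0 M) 2)) := by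
    rw [Fintype.linearIndependent_iff]
    intro c hc
    by_contra hcon
    push Not at hcon
    apply Fermat.Agent.SMOLib.sum_smul_ne_zero M b c _ hc
    intro h0
    obtain ⟨i, hi⟩ := hcon
    exact hi (congrFun h0 i)
  have hspan : ⊤ ≤ Submodule.span ℂ
      (Set.range fun i => ((b i : intLattice M 2) : CuspForm (Gamma0 M) 2)) := by
    have h23 : CuspForm.HasIntegralStructure M 2 := Fermat.Agent.S23.result M
    unfold CuspForm.HasIntegralStructure at h23
    rw [← h23, Submodule.span_le]
    intro f hf
    have h1 := b.sum_repr ⟨f, hf⟩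
    have h2 : f = ∑ i, (b.repr ⟨f, hf⟩ i) • ((b i : intLattice M 2) : CuspForm (Gamma0 M) 2) := by
      have h3 := congrArg (fun x : intLattice M 2 => (x : CuspForm (Gamma0 M) 2)) h1
      simp only [AddSubmonoidClass.coe_finsetSum, Submodule.coe_smul] at h3
      exact h3.symm
    rw [h2]
    refine Submodule.sum_mem _ fun i _ => ?_
    rw [← Int.cast_smul_eq_zsmul ℂ]
    exact Submodule.smul_mem _ _ (Submodule.subset_span ⟨i, rfl⟩)
  have h := Module.finrank_eq_card_basis (Module.Basis.mk hli hspan)
  rw [h, Fintype.card_fin]

end Ser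

end

end Fermat.Agent.S40Lib
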