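import Fermat.Agent.S40.Reg.TraceReg

/-!
# S40/S44 REG, block (DLOG), (DL3): local integral bases (minimal discriminant)
-/

set_option autoImplicit false

open AlgebraicCurve IntermediateField Polynomial Fermat.Agent.S24Lib Fermat.Agent.FFLib

namespace Fermat.Agent.S40Lib

variable {K F : Type*} [Field K] [Field F] [Algebra K F]

/-- the elements of `L` which are regular at the zeros of `s` -/
def regSub (K : Type*) {F : Type*} [Field K] [Field F] [Algebra K F] (L : IntermediateField K F)
    (s : F) : Subring L where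
  carrier := {r | RegAt K s (r : F)}
  mul_mem' := fun ha hb => RegAt.mul ha hb
  one_mem' := by
    have := regAt_algebraMap (K := K) s (1 : K)
    rwa [map_one] at this
  add_mem' := fun ha hb => RegAt.add ha hb
  zero_mem' := by
    have := regAt_algebraMap (K := K) s (0 : K)
    rwa [map_zero] at this
  neg_mem' := fun ha => RegAt.neg ha

theorem mem_regSub (L : IntermediateField K F) (s : F) (r : L) :
    r ∈ regSub K L s ↔ RegAt K s (r : F) := Iff.rfl

/-- the determinant of a matrix with regular entries is regular -/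
theorem LB_det_mem {R : Type*} [CommRing R] (S : Subring R) {n : Type*} [Fintype n] [DecidableEq n]
    (M : Matrix n n R) (hM : ∀ i j, M i j ∈ S) : M.det ∈ S := by
  set M' : Matrix n n S := Matrix.of (fun i j => (⟨M i j, hM i j⟩ : S)) with hM'
  have h1 : M = S.subtype.mapMatrix M' := by
    ext i j
    rfl
  have h2 := RingHom.map_det S.subtype M'
  rw [← h1] at h2
  rw [← h2]
  exact Subtype.property _

theorem LB_exists_pow [IsAlgClosed K] (h : IsFF K F) (s x : F) :
    ∃ N : ℕ, RegAt K s (s ^ N * x) := by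
  classical
  by_cases hx : x = 0
  · refine ⟨0, ?_⟩
    rw [hx, mul_zero]
    have := regAt_algebraMap (K := K) s (0 : K)
    rwa [map_zero] at this
  obtain ⟨M, hM⟩ := wa_bound (finite_ord_ne_zero h x).toFinset (fun Q => -Q.ord x)
  refine ⟨M.toNat, fun Q hQ => ?_⟩
  have hs0 : s ≠ 0 := by
    rintro rfl
    simp at hQ
  rw [Q.ord_mul (pow_ne_zero _ hs0) hx, wa_ord_pow]
  have h1 : (0 : ℤ) ≤ (M.toNat : ℤ) := Int.natCast_nonneg _
  by_cases h0 : Q.ord x = 0
  · rw [h0, add_zero]
    exact mul_nonneg h1 hQ.le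
  · have h2 : -Q.ord x ≤ M := hM Q (by simpa using h0)
    have h3 : M ≤ (M.toNat : ℤ) := Int.self_le_toNat M
    have h4 : (M.toNat : ℤ) * 1 ≤ (M.toNat : ℤ) * Q.ord s :=
      mul_le_mul_of_nonneg_left (by omega) h1
    omega

theorem LB_discr_mem [IsAlgClosed K] (h : IsFF K F) (L : IntermediateField K F)
    [FiniteDimensional L F] [Algebra.IsSeparable L F] (s : F) (hs : Transcendental K s)
    (hL : L = K⟮s⟯) {n : ℕ} (b : Fin n → F) (hb : ∀ j, RegAt K s (b j)) :
    RegAt K s ((Algebra.discr L b : L) : F) := by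
  rw [← mem_regSub, Algebra.discr_def]
  apply LB_det_mem
  intro i j
  rw [Algebra.traceMatrix_apply, Algebra.traceForm_apply, mem_regSub]
  exact regAt_trace h L s hs hL _ ((hb i).mul (hb j))

theorem exists_local_basis [IsAlgClosed K] (h : IsFF K F) (L : IntermediateField K F)
    [FiniteDimensional L F] [Algebra.IsSeparable L F] (s : F) (hs : Transcendental K s)
    (hL : L = K⟮s⟯) :
    ∃ β : Module.Basis (Fin (Module.finrank L F)) L F, (∀ j, RegAt K s (β j)) ∧
      ∀ x : F, RegAt K s x → ∀ i, RegAt K s ((β.repr x i : L) : F) := by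
  classical
  obtain ⟨Q₀, hQ₀⟩ := exists_place_ord_pos h hs
  have hs0 : s ≠ 0 := by
    rintro rfl
    exact hs isAlgebraic_zero
  have hsL : s ∈ L := by rw [hL]; exact mem_adjoin_simple_self K s
  set n := Module.finrank L F with hn
  have hnpos : 0 < n := Module.finrank_pos
  have : Nonempty (Fin n) := Fin.pos_iff_nonempty.mp hnpos
  -- the set of possible orders of the discriminant
  let P : ℕ → Prop := fun m => ∃ b : Fin n → F, (∀ j, RegAt K s (b j)) ∧ Algebra.discr L b ≠ 0 ∧
    Q₀.ord ((Algebra.discr L b : L) : F) = (m : ℤ)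
  have hex : ∃ m, P m := by
    set β₀ := Module.finBasis L F with hβ₀
    choose N hN using fun j => LB_exists_pow h s (β₀ j)
    have hu : ∀ j, IsUnit ((⟨s, hsL⟩ : L) ^ N j) := fun j =>
      (IsUnit.mk0 _ (by
        intro h0
        exact hs0 (congrArg Subtype.val h0))).pow _
    set β₁ := β₀.isUnitSMul hu with hβ₁
    have hreg : ∀ j, RegAt K s (β₁ j) := by
      intro j
      rw [hβ₁, Module.Basis.isUnitSMul_apply, Algebra.smul_def]
      exact hN j
    have hd0 : Algebra.discr L β₁ ≠ 0 := Algebra.discr_not_zero_of_basis L β₁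
    have hd1 := LB_discr_mem h L s hs hL β₁ hreg Q₀ hQ₀
    exact ⟨(Q₀.ord ((Algebra.discr L β₁ : L) : F)).toNat, β₁, hreg, hd0,
      (Int.toNat_of_nonneg hd1).symm⟩
  obtain ⟨b, hbreg, hbd, hbord⟩ := Nat.find_spec hex
  have hmin := fun m (hm : m < Nat.find hex) => Nat.find_min hex hm
  have hli : LinearIndependent L b := by
    by_contra hcon
    exact hbd (Algebra.discr_zero_of_not_linearIndependent L hcon)
  set β := basisOfLinearIndependentOfCardEqFinrank hli (by rw [Fintype.card_fin]) with hβ
  have hβb : ⇑β = b := coe_basisOfLinearIndependentOfCardEqFinrank hli _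
  refine ⟨β, fun j => by rw [hβb]; exact hbreg j, ?_⟩
  intro x hx i₀
  by_contra hcon
  set r : Fin n → L := fun i => β.repr x i with hr
  have hr0 : r i₀ ≠ 0 := by
    intro h0
    apply hcon
    have h1 : β.repr x i₀ = 0 := h0
    rw [h1]
    have := regAt_algebraMap (K := K) s (0 : K)
    rwa [map_zero] at this
  have hrF : ((r i₀ : L) : F) ≠ 0 := by simpa using hr0
  -- the order of `r i₀` at `Q₀` is negative
  have hneg : Q₀.ord ((r i₀ : L) : F) < 0 := by
    subst hL
    obtain ⟨a, ha⟩ := exists_ord_eq_mul_of_zero (r i₀) hr0 (0 : K)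
    simp only [map_zero, sub_zero] at ha
    have ha0 : a < 0 := by
      by_contra hge
      push Not at hge
      apply hcon
      intro Q hQ
      have h1 : Q.ord ((r i₀ : K⟮s⟯) : F) = a * Q.ord s := ha Q hQ
      have h2 : Q.ord ((β.repr x i₀ : K⟮s⟯) : F) = a * Q.ord s := h1
      rw [h2]
      exact mul_nonneg hge hQ.le
    rw [ha Q₀ hQ₀]
    exact mul_neg_of_neg_of_pos ha0 hQ₀
  -- the new family
  set Pm : Matrix (Fin n) (Fin n) L := (1 : Matrix (Fin n) (Fin n) L).updateRow i₀ r with hPm
  have hdet : Pm.det = r i₀ := by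
    rw [hPm, ← Matrix.cramer_transpose_apply, Matrix.transpose_one, Matrix.cramer_one]
    rfl
  set b' : Fin n → F := Matrix.mulVec (Pm.map (algebraMap L F)) b with hb'
  have hb'i : ∀ i, b' i = if i = i₀ then x else b i := by
    intro i
    rw [hb', Matrix.mulVec, dotProduct]
    split_ifs with hi
    · subst hi
      have h1 := β.sum_repr x
      rw [← h1]
      refine Finset.sum_congr rfl fun j _ => ?_
      rw [Matrix.map_apply, hPm, Matrix.updateRow_self, hβb, Algebra.smul_def]
    · rw [Finset.sum_eq_single i]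
      · rw [Matrix.map_apply, hPm, Matrix.updateRow_ne hi, Matrix.one_apply_eq, map_one, one_mul]
      · intro j _ hj
        rw [Matrix.map_apply, hPm, Matrix.updateRow_ne hi, Matrix.one_apply_ne (Ne.symm hj),
          map_zero, zero_mul]
      · intro hi'
        exact absurd (Finset.mem_univ i) hi'
  have hb'reg : ∀ j, RegAt K s (b' j) := by
    intro j
    rw [hb'i]
    split_ifs
    · exact hx
    · exact hbreg j
  have hdisc : Algebra.discr L b' = r i₀ ^ 2 * Algebra.discr L b := by
    rw [hb', Algebra.discr_of_matrix_mulVec, hdet]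
  have hd0 : Algebra.discr L b' ≠ 0 := by
    rw [hdisc]
    exact mul_ne_zero (pow_ne_zero _ hr0) hbd
  have hd1 := LB_discr_mem h L s hs hL b' hb'reg Q₀ hQ₀
  have hbdF : ((Algebra.discr L b : L) : F) ≠ 0 := by simpa using hbd
  have hord : Q₀.ord ((Algebra.discr L b' : L) : F) =
      2 * Q₀.ord ((r i₀ : L) : F) + (Nat.find hex : ℤ) := by
    rw [hdisc]
    have h1 : ((r i₀ ^ 2 * Algebra.discr L b : L) : F) =
        ((r i₀ : L) : F) ^ 2 * ((Algebra.discr L b : L) : F) := by
      push_cast
      rfl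
    rw [h1, Q₀.ord_mul (pow_ne_zero _ hrF) hbdF, wa_ord_pow, hbord]
    push_cast
    ring
  refine hmin (Q₀.ord ((Algebra.discr L b' : L) : F)).toNat ?_
    ⟨b', hb'reg, hd0, (Int.toNat_of_nonneg hd1).symm⟩
  omega

end Fermat.Agent.S40Lib
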