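import Fermat.Agent.S37.FEFund

/-!
# S40 (REG): divisibility by `p` of all orders descends along an extension of degree prime to `p`
-/

set_option autoImplicit false

open AlgebraicCurve

namespace Fermat.Agent.S40Reg

open Fermat.Agent.S18Lib Fermat.Agent.S24Lib Fermat.Agent.FFLib Fermat.Agent.S37Lib

variable {K F F' : Type*} [Field K] [Field F] [Field F'] [Algebra K F] [Algebra K F']
  [Algebra F F'] [IsScalarTower K F F']

theorem dvd_ord_descend [IsAlgClosed K] (hF : IsFF K F) (hF' : IsFF K F') {p : ℕ}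
    (hp : p.Prime) (hd : ¬ p ∣ Module.finrank F F') (h : F)
    (hord : ∀ w : Place K F', (p : ℤ) ∣ w.ord (algebraMap F F' h)) (v : Place K F) :
    (p : ℤ) ∣ v.ord h := by
  have : Module.Finite F F' := fe_finite hF hF'
  have : Algebra.IsIntegral F F' := Algebra.IsIntegral.of_finite F F'
  have : HasPrincipalDivisors K F' := hasPrincipalDivisors hF'
  have hfi := (fe_fundamental hF hF').sum_ramificationIndex_mul_deg v
  by_contra hcon
  apply hd
  have hpz : Prime (p : ℤ) := Nat.prime_iff_prime_int.mp hp
  have h1 : (p : ℤ) ∣ ∑ w ∈ v.fiber F', (w.ramificationIndex F : ℤ) * (w.deg : ℤ) := by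
    refine Finset.dvd_sum fun w hw => ?_
    have h2 := hord w
    rw [w.ord_restrict h, Place.mem_fiber.mp hw] at h2
    rcases hpz.dvd_or_dvd h2 with h3 | h3
    · exact Dvd.dvd.mul_right h3 _
    · exact absurd h3 hcon
  rw [hfi, deg_eq_one hF v] at h1
  rw [Nat.cast_one, mul_one] at h1
  exact_mod_cast h1

end Fermat.Agent.S40Reg
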