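import Fermat.Agent.Lib.FF.ThetaD
import Fermat.Agent.S33.YSep

/-!
# S40 / S44, block (REG), (DL9): `d/dt` on a function field inside `k((q))`
-/

set_option autoImplicit false

open AlgebraicCurve IntermediateField Polynomial Fermat.Agent.S24Lib Fermat.Agent.FFLib

namespace Fermat.Agent.S40Lib

open Fermat.Agent.S33Lib

/-- every derivative is a multiple of `D t` -/
theorem DL9_exists_coeff {k κ Ω : Type*} [Field k] [Field κ] [Algebra k κ]
    [Field Ω] [Algebra κ Ω] [Algebra k Ω] [IsScalarTower k κ Ω]
    (p : ℕ) [Fact p.Prime] [CharP k p] [PerfectField k] (D : Derivation k κ Ω) (t : κ)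
    (ht : D t ≠ 0) [Algebra.IsAlgebraic (IntermediateField.adjoin k {t}) κ] (x : κ) :
    ∃ c : κ, D x = c • D t := by
  have hp : p.Prime := Fact.out
  have : CharP κ p := charP_of_injective_algebraMap (algebraMap k κ).injective p
  have : CharP Ω p := charP_of_injective_algebraMap (algebraMap k Ω).injective p
  have : CharP k⟮t⟯ p := charP_of_injective_algebraMap (algebraMap k k⟮t⟯).injective p
  have : ExpChar k⟮t⟯ p := ExpChar.prime hp
  have hsep : Algebra.IsSeparable k⟮t⟯ κ :=
    Fermat.Agent.FFLib.isSeparable_of_derivation_ne_zero D t ht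
  have hk : ∀ a : k, algebraMap k κ a ∈ sepField p t := fun a => by
    refine ⟨C (algebraMap k κ ((frobeniusEquiv k p).symm a)), ?_⟩
    rw [sepEv_C, ← map_pow, ← frobenius_def, ← frobeniusEquiv_apply]
    simp
  have htS : t ∈ sepField p t := ⟨X, sepEv_X p t⟩
  have h1 : k⟮t⟯ ≤ (sepField p t).toIntermediateField hk :=
    adjoin_le_iff.2 (Set.singleton_subset_iff.2 htS)
  have hall : ∀ x : κ, x ∈ sepField p t := fun x => by
    have e := adjoin_simple_eq_adjoin_pow_expChar_of_isSeparable' k⟮t⟯ κ x p
    have h2 : k⟮t⟯⟮x ^ p⟯ ≤ (sepField p t).toIntermediateField (fun a => h1 a.2) :=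
      adjoin_le_iff.2 (Set.singleton_subset_iff.2 ⟨C x, sepEv_C p t x⟩)
    exact h2 (e ▸ mem_adjoin_simple_self _ x)
  obtain ⟨P, hP⟩ := hall x
  exact ⟨sepEv p t (derivative P), by rw [← hP, sepEv_D]⟩

/-! ### (DL9) `Reg/ThetaDeriv.lean` : `d/dt` on a function field inside `k((q))` -/

theorem exists_deriv_theta {k : Type*} [Field k] [PerfectField k] (p : ℕ) [Fact p.Prime]
    [CharP k p] (F : IntermediateField k (LaurentSeries k)) (t : F)
    (ht : thetaD k ((t : F) : LaurentSeries k) ≠ 0) [Algebra.IsAlgebraic k⟮t⟯ F] :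
    ∃ D : Derivation k F F, D t = 1 ∧ ∀ x : F,
      thetaD k ((x : F) : LaurentSeries k) =
        ((D x : F) : LaurentSeries k) * thetaD k ((t : F) : LaurentSeries k) := by
  classical
  have hex : ∀ x : F, ∃ c : F, thetaFun ((x : F) : LaurentSeries k) =
      ((c : F) : LaurentSeries k) * thetaFun ((t : F) : LaurentSeries k) := by
    intro x
    obtain ⟨c, hc⟩ := DL9_exists_coeff (Ω := LaurentSeries k) p (thetaDF F) t ht x
    refine ⟨c, ?_⟩
    have h2 : thetaDF F x = ((c : F) : LaurentSeries k) * thetaDF F t := by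
      rw [hc, Algebra.smul_def]
      rfl
    exact h2
  have ht' : thetaFun ((t : F) : LaurentSeries k) ≠ 0 := ht
  choose f hf using hex
  have huniq : ∀ (x c : F), thetaFun ((x : F) : LaurentSeries k) =
      ((c : F) : LaurentSeries k) * thetaFun ((t : F) : LaurentSeries k) → f x = c := by
    intro x c hc
    exact Subtype.ext (mul_right_cancel₀ ht' ((hf x).symm.trans hc))
  have hmul : ∀ x y : F, f (x * y) = x * f y + y * f x := by
    intro x y
    apply huniq
    show thetaFun (((x : F) : LaurentSeries k) * ((y : F) : LaurentSeries k)) =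
      (((x : F) : LaurentSeries k) * ((f y : F) : LaurentSeries k) +
        ((y : F) : LaurentSeries k) * ((f x : F) : LaurentSeries k)) * _
    rw [thetaFun_mul, hf x, hf y]
    ring
  have hconst : ∀ c : k, f (algebraMap k F c) = 0 := by
    intro c
    apply huniq
    show thetaFun (algebraMap k (LaurentSeries k) c) = (0 : LaurentSeries k) * _
    rw [algebraMap_eq_C, thetaFun_C, zero_mul]
  let L : F →ₗ[k] F :=
    { toFun := f
      map_add' := by
        intro x y
        apply huniq
        show thetaFun (((x : F) : LaurentSeries k) + ((y : F) : LaurentSeries k)) =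
          (((f x : F) : LaurentSeries k) + ((f y : F) : LaurentSeries k)) * _
        rw [thetaFun_add, hf x, hf y]
        ring
      map_smul' := by
        intro c x
        rw [Algebra.smul_def, hmul, hconst, mul_zero, add_zero, RingHom.id_apply,
          Algebra.smul_def] }
  refine ⟨Derivation.mk' L (fun x y => ?_), ?_, fun x => hf x⟩
  · show f (x * y) = x • f y + y • f x
    rw [hmul, smul_eq_mul, smul_eq_mul]
  · show f t = 1
    apply huniq
    show _ = (1 : LaurentSeries k) * _
    rw [one_mul]

end Fermat.Agent.S40Lib
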