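import Fermat.Agent.S40.Reg.CuspRed
import Fermat.Agent.S40.Reg.DlogSpan
import Fermat.Agent.S40.Reg.ThetaDeriv
import Fermat.Agent.S40.Reg.LatInd
import Fermat.Agent.S40.Reg.LatRank
import Fermat.Prelude.Def_CuspForm_HeckeLocal

/-!
# S40, block (REG), (C10): `θ h / h` lies in the span of the reduced lattice
-/

set_option autoImplicit false
set_option synthInstance.maxHeartbeats 400000
set_option linter.unusedSectionVars false

open UpperHalfPlane AlgebraicCurve IntermediateField Polynomial ModularCurve CongruenceSubgroup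
  CuspForm ModularFormClass

namespace Fermat.Agent.S40Lib

open Fermat.Agent.S18Lib Fermat.Agent.S24Lib Fermat.Agent.S28Lib Fermat.Agent.ESLib
  Fermat.Agent.S34Lib Fermat.Agent.FFLib

noncomputable section

variable (M : ℕ) [NeZero M]


variable (p : ℕ) [NeZero p] [hpF : Fact p.Prime] (hpM : ¬ p ∣ M)
variable (A : ValuationSubring Qb) (hA : A.LiesOverPrime p)

/-- the coercion of a linear combination -/
theorem SP_coe_sum {r : ℕ} (c : Fin r → kk A) (ω : Fin r → FT A M) :
    ((∑ i, c i • ω i : FT A M) : LaurentSeries (kk A)) =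
      ∑ i, HahnSeries.C (c i) * ((ω i : FT A M) : LaurentSeries (kk A)) := by
  rw [AddSubmonoidClass.coe_finsetSum]
  refine Finset.sum_congr rfl fun i _ => ?_
  rw [IntermediateField.coe_smul, Algebra.smul_def, algebraMap_eq_C]

set_option maxHeartbeats 1000000 in
include hpM hA in
/-- (C10) = (RJ6) `Reg/Span.lean` -/
theorem dlog_mem_lattice (h5 : 5 ≤ p) (h : FT A M) (hh : h ≠ 0)
    (hord : ∀ Q : Place (kk A) (FT A M), (p : ℤ) ∣ Q.ord h) :
    ∃ (r : ℕ) (e : Fin r → intLattice M 2) (c : Fin r → kk A),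
      thetaFun (h : LaurentSeries (kk A)) / (h : LaurentSeries (kk A)) =
        ∑ i, HahnSeries.C (c i) * serR M (kk A) (e i) := by
  have hk := isAlgClosed_kk A
  have hchar : CharP (kk A) p := Fermat.Agent.ESLib.charP_kk hpF.out hA
  have hFt := isFF_FT A M
  haveI := intLattice.moduleFinite M
  haveI := intLattice.moduleFree M
  set bZ := Module.finBasis ℤ (intLattice M 2) with hbZ
  choose b hb1 hb2 using fun i => exists_cusp_red M p hpM A hA (bZ i)
  set ω : Fin (Module.finrank ℤ (intLattice M 2)) → FT A M := fun i => redC M hpM A hA (b i)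
    with hω
  set θt : LaurentSeries (kk A) := thetaFun ((jT A M : FT A M) : LaurentSeries (kk A)) with hθt
  have hθt0 : θt ≠ 0 := CR_theta_ne (kk A)
  have hli : LinearIndependent (kk A) ω := by
    rw [Fintype.linearIndependent_iff]
    intro c hc
    have h1 := congrArg (fun x : FT A M => (x : LaurentSeries (kk A)) * θt) hc
    simp only [SP_coe_sum, ZeroMemClass.coe_zero, zero_mul, Finset.sum_mul] at h1
    have h2 : ∑ i, HahnSeries.C (c i) * serR M (kk A) (bZ i) = 0 := by
      rw [← h1]
      refine Finset.sum_congr rfl fun i _ => ?_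
      rw [← hb1 i, mul_assoc]
    exact congrFun (serR_independent M p bZ c h2)
  have hreg : ∀ i, IsRegJ A M (ω i) := fun i =>
    isRegJ_of_bounds A M hA h5 (ω i) (ω i ^ 6 * wT M A) rfl
      (fun Q => (hb2 i Q).1) (fun Q => (hb2 i Q).2)
  obtain ⟨htt, hsep⟩ := ru_sep (FT A M) hFt (jT A M) (coeff_jqModC_neg_one (kk A))
  have hfd : FiniteDimensional (kk A)⟮jT A M⟯ (FT A M) := hFt.finiteDimensional htt
  have halg : Algebra.IsAlgebraic (kk A)⟮jT A M⟯ (FT A M) := Algebra.IsAlgebraic.of_finite _ _
  obtain ⟨D, hD1, hD⟩ := exists_deriv_theta p (FT A M) (jT A M) hθt0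
  have hg : genusR (kk A) (FT A M) ≤ Module.finrank ℤ (intLattice M 2) := by
    rw [finrank_intLattice]
    exact genusR_le_gS M p hpM A hA
  have hmem := dlog_mem_span p hFt htt D hD1 ω hli (fun i => (hreg i).1) (fun i => (hreg i).2) hg
    h hh hord
  obtain ⟨c, hc⟩ := (Submodule.mem_span_range_iff_exists_fun (kk A)).1 hmem
  refine ⟨_, bZ, c, ?_⟩
  have hh' : (h : LaurentSeries (kk A)) ≠ 0 := fun h0 => hh (Subtype.ext h0)
  have h1 : thetaFun (h : LaurentSeries (kk A)) = ((D h : FT A M) : LaurentSeries (kk A)) * θt :=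
    hD h
  have h2 := congrArg (fun x : FT A M => (x : LaurentSeries (kk A)) * θt) hc
  simp only [SP_coe_sum, Finset.sum_mul] at h2
  have h3 : ((D h / h : FT A M) : LaurentSeries (kk A)) =
      ((D h : FT A M) : LaurentSeries (kk A)) / (h : LaurentSeries (kk A)) := rfl
  rw [h3] at h2
  rw [h1, mul_div_right_comm, ← h2]
  refine Finset.sum_congr rfl fun i _ => ?_
  rw [← hb1 i, mul_assoc]

end

end Fermat.Agent.S40Lib
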