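import Fermat.Agent.S40.Reg.Basic

/-!
# S40/S44 REG, block (DLOG), (DL3a): the trace of a function regular above `s = 0` is regular
-/

set_option autoImplicit false

open AlgebraicCurve IntermediateField Polynomial Fermat.Agent.S24Lib Fermat.Agent.FFLib

namespace Fermat.Agent.S40Lib

variable {K F : Type*} [Field K] [Field F] [Algebra K F]

theorem regAt_trace [IsAlgClosed K] (h : IsFF K F) (L : IntermediateField K F)
    [FiniteDimensional L F] [Algebra.IsSeparable L F] (s : F) (hs : Transcendental K s) (hL : L = K⟮s⟯)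
    (x : F) (hx : RegAt K s x) : RegAt K s ((Algebra.trace L F x : L) : F) := by
  subst hL
  intro Q₀ hc'
  have hs0 : s ≠ 0 := by
    rintro rfl
    exact hs isAlgebraic_zero
  set sL : K⟮s⟯ := AdjoinSimple.gen K s with hsL
  have hsLc : ((sL : K⟮s⟯) : F) = s := AdjoinSimple.coe_gen K s
  have key := ord_trace_pos h K⟮s⟯ Q₀ (s * x) (by
    intro Q hQ
    have h1 : 0 < Q.ord s := by
      have := hQ sL (by rw [hsLc]; exact hc')
      rwa [hsLc] at this
    have h5 := D2.ge_mul Q (D2.ge_of_ord Q (le_refl (Q.ord s)))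
      ((tf_ge_zero_iff Q x).mpr (hx Q h1))
    rw [add_zero] at h5
    rcases h5 with h5 | h5
    · exact Or.inl h5
    · exact Or.inr (by omega))
  have hlin : Algebra.trace K⟮s⟯ F (s * x) = sL * Algebra.trace K⟮s⟯ F x := by
    have : s * x = sL • x := by rw [Algebra.smul_def]; rfl
    rw [this, map_smul, smul_eq_mul]
  rw [hlin] at key
  set r : K⟮s⟯ := Algebra.trace K⟮s⟯ F x with hr
  by_cases hr0 : r = 0
  · rw [hr0]; simp
  obtain ⟨a, ha⟩ := exists_ord_eq_mul_of_zero r hr0 0
  simp only [map_zero, sub_zero] at ha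
  have hrF : (r : F) ≠ 0 := by simpa using hr0
  have h7 : ((sL * r : K⟮s⟯) : F) = s * (r : F) := rfl
  rw [h7] at key
  rcases key with h0 | h0
  · exact absurd h0 (mul_ne_zero hs0 hrF)
  · rw [Q₀.ord_mul hs0 hrF, ha Q₀ hc'] at h0
    rw [ha Q₀ hc']
    have h8 : 0 ≤ a := by
      by_contra hneg
      push Not at hneg
      have : (1 + a) * Q₀.ord s ≤ 0 := mul_nonpos_of_nonpos_of_nonneg (by omega) hc'.le
      nlinarith
    exact mul_nonneg h8 hc'.le

end Fermat.Agent.S40Lib
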