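import Fermat.Agent.S18.RiemannUpper
import Fermat.Agent.S18.ThetaJ
import Fermat.Agent.S34.GoodM

/-!
# S40, block (REG), (RJ1): Riemann's upper bound for `X₀(M)` mod `ℓ`, all `M`, `ℓ ≥ 5`
(separating variable `j` instead of a Hauptmodul of level `2` or `3`)
-/

set_option autoImplicit false
set_option synthInstance.maxHeartbeats 400000

open UpperHalfPlane ModularForm Matrix.SpecialLinearGroup CongruenceSubgroup ModularCurve
open AlgebraicCurve IntermediateField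
open scoped MatrixGroups Manifold Polynomial

namespace Fermat.Agent.S40Lib

open Fermat.Agent.S20Lib Fermat.Agent.S28Lib Fermat.Agent.S24Lib Fermat.Agent.S18Lib
  Fermat.Agent.S28Lib.RelationAux Fermat.Agent.FFLib Fermat.Agent.S34Lib

noncomputable section

/-! ## `Δ θ(j) = ± E₄² E₆` -/

theorem RJ_alg {R : Type*} [CommRing R] {a d j e ta td tj : R} (hd : IsUnit d)
    (h1 : d * j = a ^ 3) (h3 : 3 * ta * d - a * td = -(e * d))
    (h4 : d * tj + j * td = 3 * a ^ 2 * ta) : d * tj = -(a ^ 2 * e) := by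
  apply hd.mul_left_cancel
  linear_combination d * h4 - td * h1 + a ^ 2 * h3

theorem RJ_theta_complex : ∃ ε : ℤ, (ε = 1 ∨ ε = -1) ∧
    DL ℂ * thetaFun (jqModC ℂ) = (ε : LaurentSeries ℂ) * (LL ℂ eisenstein4 ^ 2 * LL ℂ e6Z) := by
  obtain ⟨e6, h2, h3⟩ := exists_e6
  have h5 : DL ℂ * thetaFun (jqModC ℂ) = -(LL ℂ eisenstein4 ^ 2 * e6) := by
    refine RJ_alg (isUnit_DL ℂ) (DL_mul_j ℂ) h3 ?_
    have h := congrArg thetaFun (DL_mul_j ℂ)
    rw [thetaFun_mul, th_pow] at h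
    push_cast at h
    linear_combination h
  have h6 : (1728 : LaurentSeries ℂ) * DL ℂ = LL ℂ eisenstein4 ^ 3 - LL ℂ e6Z ^ 2 := by
    have := congrArg (LL ℂ) delta_eq
    rw [map_mul, map_sub, map_pow, map_pow, map_ofNat] at this
    exact this
  have h7 : e6 ^ 2 = LL ℂ e6Z ^ 2 := by linear_combination -h2 - h6
  rcases sq_eq_sq_iff_eq_or_eq_neg.1 h7 with h | h
  · exact ⟨-1, Or.inr rfl, by rw [h5, h]; push_cast; ring⟩
  · exact ⟨1, Or.inl rfl, by rw [h5, h]; push_cast; ring⟩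

theorem RJ_theta_int : ∃ ε : ℤ, (ε = 1 ∨ ε = -1) ∧
    DL ℤ * thetaFun (jqModC ℤ) = (ε : LaurentSeries ℤ) * (LL ℤ eisenstein4 ^ 2 * LL ℤ e6Z) := by
  obtain ⟨ε, hε, h⟩ := RJ_theta_complex
  refine ⟨ε, hε, ?_⟩
  apply Fermat.Agent.S28Lib.coeffMap_injective (f := Int.castRingHom ℂ) (RingHom.injective_int _)
  rw [map_mul, ← th_coeffMap, map_mul, map_mul, map_pow, coeffMap_jqModC, TJ_coeffMap_DL,
    TJ_coeffMap_LL, TJ_coeffMap_LL, map_intCast]
  exact h

theorem RJ_theta (κ : Type) [CommRing κ] : ∃ ε : ℤ, (ε = 1 ∨ ε = -1) ∧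
    DL κ * thetaFun (jqModC κ) = (ε : LaurentSeries κ) * (LL κ eisenstein4 ^ 2 * LL κ e6Z) := by
  obtain ⟨ε, hε, h⟩ := RJ_theta_int
  refine ⟨ε, hε, ?_⟩
  have h' := congrArg (coeffMap (Int.castRingHom κ)) h
  rw [map_mul, ← th_coeffMap, map_mul, map_mul, map_pow, coeffMap_jqModC, TJ_coeffMap_DL,
    TJ_coeffMap_LL, TJ_coeffMap_LL, map_intCast] at h'
  exact h'

/-! ## the multiplier `u = 1 / θ(j)` -/

theorem RJ_jE : W7_jE = jqModC Qb := by
  rw [W7_jE_eq, ← jqModC_rat, coeffEmb, coeffMap_jqModC]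

/-- `u = 1 / θ(j)` -/
def uJ : LaurentSeries Qb := (thetaFun W7_jE)⁻¹

theorem RJ_LL_ne {s : PowerSeries ℤ} (n : ℕ) (h : s.coeff n ≠ 0) : LL Qb s ≠ 0 := hk_ne_zero n h

theorem RJ_e4_ne : LL Qb eisenstein4 ≠ 0 :=
  RJ_LL_ne 0 (by
    rw [PowerSeries.coeff_zero_eq_constantCoeff_apply, constantCoeff_eisenstein4]
    exact one_ne_zero)

theorem RJ_e6_ne : LL Qb e6Z ≠ 0 :=
  RJ_LL_ne 0 (by
    rw [e6Z, PowerSeries.coeff_mk]
    simp [HS.c6])

theorem RJ_theta_ne : thetaFun W7_jE ≠ 0 := by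
  obtain ⟨ε, hε, h⟩ := RJ_theta Qb
  intro h0
  rw [← RJ_jE, h0, mul_zero] at h
  have hε0 : (ε : LaurentSeries Qb) ≠ 0 := by
    rcases hε with rfl | rfl <;> simp
  exact mul_ne_zero hε0 (mul_ne_zero (pow_ne_zero _ RJ_e4_ne) RJ_e6_ne) h.symm

theorem uJ_ne : uJ ≠ 0 := inv_ne_zero RJ_theta_ne

theorem uJ_rel : uJ ^ 6 * (W7_jE ^ 4 * (W7_jE - 1728) ^ 3) * W7_DK = 1 := by
  have h := thetaFun_j_pow_six Qb
  rw [← RJ_jE] at h
  have h2 : W7_jE ^ 4 * (W7_jE - 1728) ^ 3 * W7_DK = thetaFun W7_jE ^ 6 := h.symm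
  rw [mul_assoc, h2, uJ, inv_pow, inv_mul_cancel₀ (pow_ne_zero _ RJ_theta_ne)]

theorem uJ_mem (M : ℕ) [NeZero M] (f : CuspForm (Gamma0 M) 2) (φ : PowerSeries Qb)
    (hφ : qExpansion 1 f = φ.map iotaC) : HahnSeries.ofPowerSeries ℤ Qb φ * uJ ∈ FB M := by
  obtain ⟨ε, hε, h⟩ := RJ_theta Qb
  rw [← RJ_jE] at h
  have hQ4 : IsQ M 4 (eisenstein4.map (Int.castRingHom ℚ)) := hq_E4 M
  have hQ6 : IsQ M 6 (e6Z.map (Int.castRingHom ℚ)) := HS.isZ_e6
  have hQD : IsQ M 12 ((PowerSeries.X * dedekindEtaUnit).map (Int.castRingHom ℚ)) := by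
    have := isQ_Delta M (one_dvd M) one_ne_zero
    rwa [PowerSeries.expand_one_apply] at this
  obtain ⟨H, hH, eH⟩ := (hQD.mul hQ4).mul hQ6
  obtain ⟨G, hG, eG⟩ := (hq_pow hQ4 3).mul (hq_pow hQ6 2)
  have hf : IsMF (Gamma0 M) 2 f := (isCF_coe _ f).isMF
  have hfH : IsMF (Gamma0 M) (12 * ((2 : ℕ) : ℤ)) ((f : ℍ → ℂ) * H) := hf.mul' hH (by norm_num)
  have h1 := hr_div_mem M 2 ((f : ℍ → ℂ) * H) G hfH (by simpa using hG)
    (φ * ((PowerSeries.X * dedekindEtaUnit).map (Int.castRingHom ℚ) *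
      eisenstein4.map (Int.castRingHom ℚ) * e6Z.map (Int.castRingHom ℚ)).map (algebraMap ℚ Qb))
    (((eisenstein4.map (Int.castRingHom ℚ)) ^ 3 *
      (e6Z.map (Int.castRingHom ℚ)) ^ 2).map (algebraMap ℚ Qb))
    (by rw [qExpansion_mul (IsQAux.analytic hf) (IsQAux.analytic hH), hφ, eH, ← hr_iotaC_map,
      ← map_mul])
    (by rw [eG, hr_iotaC_map])
  simp only [map_mul, map_pow, hk_map_rat] at h1
  rw [← map_mul hk PowerSeries.X dedekindEtaUnit] at h1
  have hε0 : (ε : LaurentSeries Qb) ≠ 0 := by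
    rcases hε with rfl | rfl <;> simp
  have hεm : (ε : LaurentSeries Qb) ∈ FB M := intCast_mem _ ε
  have hD0 : W7_DK ≠ 0 := bl_DK_ne_zero
  have h4 := RJ_e4_ne
  have h6 := RJ_e6_ne
  have hεε : (ε : LaurentSeries Qb) * ε = 1 := by
    rcases hε with rfl | rfl <;> simp
  have h2 : HahnSeries.ofPowerSeries ℤ Qb φ * uJ = (ε : LaurentSeries Qb) *
      (HahnSeries.ofPowerSeries ℤ Qb φ * (hk (PowerSeries.X * dedekindEtaUnit) * hk eisenstein4 *
        hk e6Z) / (hk eisenstein4 ^ 3 * hk e6Z ^ 2)) := by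
    have h3 : thetaFun W7_jE = (ε : LaurentSeries Qb) * (hk eisenstein4 ^ 2 * hk e6Z) / W7_DK := by
      rw [eq_div_iff hD0, mul_comm]
      exact h
    have h4' : hk eisenstein4 ≠ 0 := h4
    have h6' : hk e6Z ≠ 0 := h6
    rw [uJ, h3, hk_DK]
    field_simp
    linear_combination (-(HahnSeries.ofPowerSeries ℤ Qb φ)) * hεε
  rw [h2]
  exact mul_mem hεm h1

/-! ## abstract part -/

/-- the order of `ω⁶ J⁴ (J - 1728)³` -/
theorem RJ_ord_y {k Ft : Type*} [Field k] [Field Ft] [Algebra k Ft] (Q : Place k Ft)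
    {J T ω y : Ft} (hJ : J ≠ 0) (hT : T ≠ 0) (hω : ω ≠ 0) (hy : ω ^ 6 * (J ^ 4 * T ^ 3) = y) :
    y ≠ 0 ∧ Q.ord y = 6 * Q.ord ω + (4 * Q.ord J + 3 * Q.ord T) := by
  refine ⟨?_, ?_⟩
  · rw [← hy]
    exact mul_ne_zero (pow_ne_zero _ hω) (mul_ne_zero (pow_ne_zero _ hJ) (pow_ne_zero _ hT))
  · rw [← hy, Q.ord_mul (pow_ne_zero _ hω) (mul_ne_zero (pow_ne_zero _ hJ) (pow_ne_zero _ hT)),
      Q.ord_mul (pow_ne_zero _ hJ) (pow_ne_zero _ hT), pl_ord_pow, pl_ord_pow, pl_ord_pow]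
    push_cast
    ring

/-- regularity of `ω dJ` from bounds on `ω⁶ J⁴ (J - 1728)³` -/
theorem RJ_hfin_hinf {k Ft : Type*} [Field k] [Field Ft] [Algebra k Ft]
    (J ω y : Ft) (h1728 : (1728 : k) ≠ 0)
    (hy : ω ^ 6 * (J ^ 4 * (J - algebraMap k Ft 1728) ^ 3) = y)
    (h0 : ∀ Q : Place k Ft, 0 ≤ Q.ord J → D2_ge Q 0 y)
    (h1 : ∀ Q : Place k Ft, Q.ord J < 0 → D2_ge Q (1 + Q.ord J) y) :
    (∀ (Q : Place k Ft) (c : k), 0 < Q.ord (J - algebraMap k Ft c) →
      D2_ge Q (1 - Q.ord (J - algebraMap k Ft c)) ω) ∧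
    (∀ Q : Place k Ft, Q.ord J < 0 → D2_ge Q (1 - Q.ord J) ω) := by
  constructor
  · intro Q c he
    by_cases hω : ω = 0
    · exact Or.inl hω
    right
    set u := J - algebraMap k Ft c with hu
    have e1 : J = u + algebraMap k Ft c := by rw [hu]; ring
    have e2 : J - algebraMap k Ft 1728 = u + algebraMap k Ft (c - 1728) := by
      rw [hu, map_sub]; ring
    obtain ⟨a1, a2, a3⟩ := ua_add_const_of_pos Q he c
    obtain ⟨b1, b2, b3⟩ := ua_add_const_of_pos Q he (c - 1728)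
    rw [← e1] at a1 a2 a3
    rw [← e2] at b1 b2 b3
    obtain ⟨hy0, r⟩ := RJ_ord_y Q a1 b1 hω hy
    have g0 := fun h => (h0 Q h).resolve_left hy0
    by_cases hc : c = 0
    · have hb : c - 1728 ≠ 0 := by rw [hc, zero_sub]; exact neg_ne_zero.2 h1728
      rw [a3 hc, b2 hb] at r
      have := g0 (by rw [a3 hc]; omega)
      omega
    · rw [a2 hc] at r
      have := g0 (by rw [a2 hc])
      by_cases hb : c - 1728 = 0
      · rw [b3 hb] at r
        omega
      · rw [b2 hb] at r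
        omega
  · intro Q hn
    by_cases hω : ω = 0
    · exact Or.inl hω
    right
    have hJ : J ≠ 0 := by
      rintro rfl
      simp at hn
    obtain ⟨b1, b2⟩ := ua_add_const_of_neg Q hn (-1728)
    have e2 : J + algebraMap k Ft (-1728) = J - algebraMap k Ft 1728 := by
      rw [map_neg]; ring
    rw [e2] at b1 b2
    obtain ⟨hy0, r⟩ := RJ_ord_y Q hJ b1 hω hy
    have g1 := (h1 Q hn).resolve_left hy0
    rw [b2] at r
    omega

theorem upper_abstract_j {K k F Ft : Type*} [Field K] [Field k] [Field F] [Algebra K F]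
    [Field Ft] [Algebra k Ft] {A : ValuationSubring K} {resK : A →+* k}
    (hF : IsFF K F) (hFt : IsFF k Ft) [IsAlgClosed K] [IsAlgClosed k]
    (R : RedData A resK F Ft) (xj : R.O) (hxjt : Transcendental k (R.red xj))
    (hdeg : Module.finrank K⟮((xj : R.O) : F)⟯ F ≤ Module.finrank k⟮R.red xj⟯ Ft)
    [Algebra.IsSeparable k⟮R.red xj⟯ Ft] (h1728 : (1728 : k) ≠ 0)
    (U : Submodule K F) (hUfd : FiniteDimensional K U) (m : ℕ) (hm : 1 ≤ m)
    (hU : ∀ b ∈ U,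
      b ^ 6 * (((xj : R.O) : F) ^ 4 * (((xj : R.O) : F) - 1728) ^ 3) ∈
        riemannRochSpace (1 • FFLib.poleDiv K ((xj : R.O) : F)) ∧
      (b ^ 6 * (((xj : R.O) : F) ^ 4 * (((xj : R.O) : F) - 1728) ^ 3)) ^ m ∈
        riemannRochSpace ((m - 1) • FFLib.poleDiv K ((xj : R.O) : F)))
    (c : ℤ) :
    ∃ E : Divisor k Ft, c ≤ Divisor.degree E ∧
      (FFLib.ell E : ℤ) ≤ Divisor.degree E + 1 - (Module.finrank K U : ℤ) := by
  obtain ⟨b, hbU, hbind⟩ := R.exists_orth U hUfd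
  have key : ∀ i, (∀ (Q : Place k Ft) (c : k), 0 < Q.ord (R.red xj - algebraMap k Ft c) →
      D2_ge Q (1 - Q.ord (R.red xj - algebraMap k Ft c)) (R.red (b i))) ∧
      (∀ Q : Place k Ft, Q.ord (R.red xj) < 0 → D2_ge Q (1 - Q.ord (R.red xj)) (R.red (b i))) := by
    intro i
    set y : R.O := (b i) ^ 6 * (xj ^ 4 * (xj - 1728) ^ 3) with hy
    have hyF : ((y : R.O) : F) = ((b i : R.O) : F) ^ 6 *
        (((xj : R.O) : F) ^ 4 * (((xj : R.O) : F) - 1728) ^ 3) := by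
      rw [hy]; push_cast; rfl
    obtain ⟨h1, h2⟩ := hU _ (hbU i)
    rw [← hyF] at h1 h2
    have h3 := red_ge_of_pow_mem hF hFt R xj hxjt hdeg y m hm h1 h2
    refine RJ_hfin_hinf (R.red xj) (R.red (b i)) (R.red y) h1728 ?_
      (fun Q => (h3 Q).1) (fun Q => (h3 Q).2)
    rw [hy]
    simp only [map_mul, map_pow, map_sub, map_ofNat]
  exact FFLib.exists_ell_le_of_differentials hFt hxjt (fun i => R.red (b i)) hbind
    (fun i => (key i).1) (fun i => (key i).2) c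

/-! ## the modular instance -/

/-- the `L`-space memberships in characteristic `0` -/
theorem rj_mem_L (M : ℕ) [NeZero M] (b : FB M)
    (f : CuspForm (Gamma0 M) 2) (φ : PowerSeries Qb) (hφ : qExpansion 1 f = φ.map iotaC)
    (hb : ((b : FB M) : LaurentSeries Qb) = HahnSeries.ofPowerSeries ℤ Qb φ * uJ) :
    b ^ 6 * (jBar M ^ 4 * (jBar M - 1728) ^ 3) ∈
        riemannRochSpace (1 • FFLib.poleDiv Qb (jBar M)) ∧
      (b ^ 6 * (jBar M ^ 4 * (jBar M - 1728) ^ 3)) ^ M ∈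
        riemannRochSpace ((M - 1) • FFLib.poleDiv Qb (jBar M)) := by
  have hM : 1 ≤ M := Nat.one_le_iff_ne_zero.mpr (NeZero.ne M)
  obtain ⟨hr1, hrm⟩ := rep_pow_six M f φ hφ
  have hD0 : W7_DK ≠ 0 := bl_DK_ne_zero
  have hy : ((b ^ 6 * (jBar M ^ 4 * (jBar M - 1728) ^ 3) : FB M) : LaurentSeries Qb) =
      (HahnSeries.ofPowerSeries ℤ Qb φ) ^ 6 / W7_DK := by
    have e1728 : ((1728 : FB M) : LaurentSeries Qb) = 1728 := map_ofNat (FB M).val 1728
    push_cast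
    rw [hb, W7_coe_jBar, e1728, eq_div_iff hD0, mul_pow]
    have h := uJ_rel
    calc _ = HahnSeries.ofPowerSeries ℤ Qb φ ^ 6 *
          (uJ ^ 6 * (W7_jE ^ 4 * (W7_jE - 1728) ^ 3) * W7_DK) := by ring
      _ = _ := by rw [h, mul_one]
  constructor
  · have h1 := bl_mem_L M 1 _ hr1 (mem_FB_of_Rep M 1 _ hr1)
    convert h1 using 1
    exact Subtype.ext hy
  · have h2 := hrm M (by omega) hM
    have h1 := bl_mem_L M (M - 1) _ h2 (mem_FB_of_Rep M (M - 1) _ h2)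
    convert h1 using 1
    apply Subtype.ext
    push_cast at hy ⊢
    rw [hy]

theorem RJ_1728_ne (A : ValuationSubring Qb) {ℓ : ℕ} [Fact ℓ.Prime] (hA : A.LiesOverPrime ℓ)
    (hℓ5 : 5 ≤ ℓ) : (1728 : kk A) ≠ 0 := by
  have hℓ : ℓ.Prime := Fact.out
  have h := natCast_kk_ne_zero A hA 1728 (by
    intro hd
    have e : (1728 : ℕ) = 2 ^ 6 * 3 ^ 3 := by norm_num
    rw [e] at hd
    rcases (Nat.Prime.dvd_mul hℓ).1 hd with h | h
    · have := Nat.le_of_dvd (by norm_num) (hℓ.dvd_of_dvd_pow h)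
      omega
    · have := Nat.le_of_dvd (by norm_num) (hℓ.dvd_of_dvd_pow h)
      omega)
  exact_mod_cast h

/-- `j` in the reduction datum of level `M` -/
theorem RJ_exists_j (M q : ℕ) [NeZero M] [NeZero q] [hqF : Fact q.Prime] (hqM : ¬ q ∣ M)
    (A : ValuationSubring Qb) (hA : A.LiesOverPrime q) :
    ∃ x : (RM M q hqM A hA).O, ((x : (RM M q hqM A hA).O) : FB M) = jBar M ∧
      (RM M q hqM A hA).red x = jT A M := by
  have hy : cE A (jqModC A) ∈ FB M := by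
    have := uj_coe_jBar M A
    change ((jBar M : FB M) : LaurentSeries Qb) = cE A (jqModC A) at this
    rw [← this]
    exact (jBar M).2
  obtain ⟨h, hred⟩ := rd_int M hqM A hA (jqModC A) hy
  have hx : (⟨cE A (jqModC A), hy⟩ : FB M) = jBar M :=
    Subtype.ext (uj_coe_jBar M A).symm
  refine ⟨⟨⟨cE A (jqModC A), hy⟩, h⟩, hx, ?_⟩
  apply Subtype.ext
  refine hred.trans ?_
  change coeffMap (IsLocalRing.residue A) (jqModC A) = _
  rw [coeffMap_jqModC]
  rfl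

set_option maxHeartbeats 1000000 in
/-- **(RJ1)** Riemann's upper bound, all levels prime to `q ≥ 5` -/
theorem riemann_upper_j (M q : ℕ) [NeZero M] [NeZero q] [hqF : Fact q.Prime] (hqM : ¬ q ∣ M)
    (hq5 : 5 ≤ q) (A : ValuationSubring Qb) (hA : A.LiesOverPrime q) (c : ℤ) :
    ∃ E : Divisor (kk A) (FT A M), c ≤ Divisor.degree E ∧
      S18Lib.ell E ≤ Divisor.degree E + 1 - (Module.finrank ℂ (CuspForm (Gamma0 M) 2) : ℤ) := by
  have hk := isAlgClosed_kk A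
  have hFt := isFF_FT A M
  have hF := isFF_bar M
  have hM : 1 ≤ M := Nat.one_le_iff_ne_zero.mpr (NeZero.ne M)
  obtain ⟨xj, hxj, hr⟩ := RJ_exists_j M q hqM A hA
  obtain ⟨U, hUfd, hUrank, hU⟩ := exists_cuspSpace M uJ uJ_ne (uJ_mem M)
  obtain ⟨htt, hsep⟩ := ru_sep (FT A M) hFt ((RM M q hqM A hA).red xj) (by
    rw [hr]
    exact coeff_jqModC_neg_one (kk A))
  have hU' : ∀ b ∈ U,
      b ^ 6 * (((xj : (RM M q hqM A hA).O) : FB M) ^ 4 *
        (((xj : (RM M q hqM A hA).O) : FB M) - 1728) ^ 3) ∈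
        riemannRochSpace (1 • FFLib.poleDiv Qb ((xj : (RM M q hqM A hA).O) : FB M)) ∧
      (b ^ 6 * (((xj : (RM M q hqM A hA).O) : FB M) ^ 4 *
        (((xj : (RM M q hqM A hA).O) : FB M) - 1728) ^ 3)) ^ M ∈
        riemannRochSpace ((M - 1) • FFLib.poleDiv Qb ((xj : (RM M q hqM A hA).O) : FB M)) := by
    intro b hb
    obtain ⟨f, φ, hφ, hbφ⟩ := hU b hb
    rw [hxj]
    exact rj_mem_L M b f φ hφ hbφ
  obtain ⟨E, hE1, hE2⟩ := upper_abstract_j hF hFt (RM M q hqM A hA) xj htt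
    (by
      rw [hr, hxj, finrank_eq_index M]
      exact idx_le_finrank_FT M hqM A hA)
    (RJ_1728_ne A hA hq5) U hUfd M hM hU' c
  refine ⟨E, hE1, ?_⟩
  rw [ell_eq_ell, ← hUrank]
  exact hE2

/-- the genus of the reduction, all levels prime to `q ≥ 5` -/
theorem gS_le_genusR_j (M q : ℕ) [NeZero M] [NeZero q] [hqF : Fact q.Prime] (hqM : ¬ q ∣ M)
    (hq5 : 5 ≤ q) (A : ValuationSubring Qb) (hA : A.LiesOverPrime q) :
    Module.finrank ℂ (CuspForm (Gamma0 M) 2) ≤ genusR (kk A) (FT A M) := by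
  have hk := isAlgClosed_kk A
  obtain ⟨E, -, hE⟩ := riemann_upper_j M q hqM hq5 A hA 0
  rw [ell_eq_ell] at hE
  have h1 := riemann_inequality (isFF_FT A M) E
  have h2 : (Module.finrank ℂ (CuspForm (Gamma0 M) 2) : ℤ) ≤ (genusR (kk A) (FT A M) : ℤ) := by
    omega
  exact_mod_cast h2

/-- good reduction at level `M` in the form `V(L(nJ)) = L(n J̄)`, all levels prime to `q ≥ 5` -/
theorem exists_lift_L_j (M q : ℕ) [NeZero M] [NeZero q] [hqF : Fact q.Prime] (hqM : ¬ q ∣ M)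
    (hq5 : 5 ≤ q) (A : ValuationSubring Qb) (hA : A.LiesOverPrime q) :
    ∃ n₀ : ℕ, ∀ n, n₀ ≤ n → ∀ y ∈ riemannRochSpace (n • poleDiv (kk A) (jT A M)),
      ∃ z : OC M hqM A hA, (z : FB M) ∈ riemannRochSpace (n • poleDiv Qb (jBar M)) ∧
        redC M hqM A hA z = y := by
  have hk := isAlgClosed_kk A
  have hFt := isFF_FT A M
  have hF := isFF_bar M
  obtain ⟨x, hxc, hr⟩ := RJ_exists_j M q hqM A hA
  obtain ⟨n₀, hn₀⟩ := redSpace_L_eq hF hFt IsLocalRing.residue_surjective (RM M q hqM A hA)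
    (Module.finrank ℂ (CuspForm (Gamma0 M) 2) : ℤ)
    (fun E => by rw [← ell_eq_ell]; exact riemann_lower M E)
    (fun c => by
      obtain ⟨E, h1, h2⟩ := riemann_upper_j M q hqM hq5 A hA c
      exact ⟨E, h1, by rw [← ell_eq_ell]; exact h2⟩)
    x (by rw [hr]; exact transcendental_jT A M)
    (by
      rw [hr, hxc, finrank_eq_index M]
      exact idx_le_finrank_FT M hqM A hA)
  refine ⟨n₀, fun n hn y hy => ?_⟩
  have h1 := hn₀ n hn
  rw [hr, hxc] at h1
  rw [← h1] at hy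
  obtain ⟨z, hz, hzy⟩ := hy
  exact ⟨z, hz, hzy⟩

/-- abstract: the genus does not go up under reduction -/
theorem genusR_le_of_lower {K k F Ft : Type*} [Field K] [Field k] [Field F] [Algebra K F]
    [Field Ft] [Algebra k Ft] {A : ValuationSubring K} {resK : A →+* k} [IsAlgClosed K]
    [IsAlgClosed k] (hF : IsFF K F) (hFt : IsFF k Ft) (hres : Function.Surjective resK)
    (R : RedData A resK F Ft) (g : ℤ)
    (hlow : ∀ E : Divisor K F, Divisor.degree E + 1 - g ≤ (FFLib.ell E : ℤ))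
    (x : R.O) (hx : Transcendental k (R.red x))
    (hdeg : Module.finrank K⟮((x : R.O) : F)⟯ F ≤ Module.finrank k⟮R.red x⟯ Ft) :
    (genusR k Ft : ℤ) ≤ g := by
  classical
  have hxK : Transcendental K ((x : R.O) : F) := transcendental_of_red R x hx
  have hle := finrank_red_le hF hFt R x hx
  set xF : F := ((x : R.O) : F) with hxF
  set xb : Ft := R.red x with hxb
  set dF := Module.finrank K⟮xF⟯ F with hdF
  set dt := Module.finrank k⟮xb⟯ Ft with hdt
  have hdd : dF = dt := le_antisymm hdeg hle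
  have hdt0 : 0 < dt := by
    have := IsFF.finiteDimensional hFt hx
    exact Module.finrank_pos
  obtain ⟨c, hc⟩ := riemann_equality hFt
  set n : ℕ := c.toNat with hn
  have hcn : c ≤ (n : ℤ) * dt := by
    have h1 : c ≤ (n : ℤ) := Int.self_le_toNat c
    have h2 : (n : ℤ) * 1 ≤ (n : ℤ) * dt := by
      apply mul_le_mul_of_nonneg_left _ (by positivity)
      exact_mod_cast hdt0
    omega
  have : FiniteDimensional K (riemannRochSpace (n • poleDiv K xF)) := finiteDimensional_L hF _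
  have : FiniteDimensional k (riemannRochSpace (n • poleDiv k xb)) := finiteDimensional_L hFt _
  have hsub : redSpace R hres (riemannRochSpace (n • poleDiv K xF)) ≤
      riemannRochSpace (n • poleDiv k xb) := by
    rintro _ ⟨s, hs, rfl⟩
    have h1 := red_mem_L_pole_zero hF hFt R x hx hdeg n 0 s (by simpa using hs)
    simpa using h1
  have h0 := Submodule.finrank_mono hsub
  rw [finrank_redSpace] at h0
  have h1 := hlow (n • poleDiv K xF)
  rw [map_nsmul, degree_poleDiv hF hxK, nsmul_eq_mul] at h1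
  have h2 := hc (n • poleDiv k xb) (by
    rw [map_nsmul, degree_poleDiv hFt hx, nsmul_eq_mul]
    exact hcn)
  rw [map_nsmul, degree_poleDiv hFt hx, nsmul_eq_mul] at h2
  have h3 : (FFLib.ell (n • poleDiv K xF) : ℤ) ≤ (FFLib.ell (n • poleDiv k xb) : ℤ) := by
    exact_mod_cast h0
  rw [← hdF] at h1
  rw [← hdt] at h2
  rw [hdd] at h1
  omega

/-- the genus of the reduction is at most `dim S₂(M)` (any `q ∤ M`) -/
theorem genusR_le_gS (M q : ℕ) [NeZero M] [NeZero q] [hqF : Fact q.Prime] (hqM : ¬ q ∣ M)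
    (A : ValuationSubring Qb) (hA : A.LiesOverPrime q) :
    genusR (kk A) (FT A M) ≤ Module.finrank ℂ (CuspForm (Gamma0 M) 2) := by
  have hk := isAlgClosed_kk A
  obtain ⟨x, hxc, hr⟩ := RJ_exists_j M q hqM A hA
  have h := genusR_le_of_lower (isFF_bar M) (isFF_FT A M) IsLocalRing.residue_surjective
    (RM M q hqM A hA) (Module.finrank ℂ (CuspForm (Gamma0 M) 2) : ℤ)
    (fun E => by rw [← ell_eq_ell]; exact riemann_lower M E)
    x (by rw [hr]; exact transcendental_jT A M)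
    (by
      rw [hr, hxc, finrank_eq_index M]
      exact idx_le_finrank_FT M hqM A hA)
  exact_mod_cast h

/-- the genus of the reduction, `q ≥ 5` -/
theorem genusR_eq_gS_j (M q : ℕ) [NeZero M] [NeZero q] [hqF : Fact q.Prime] (hqM : ¬ q ∣ M)
    (hq5 : 5 ≤ q) (A : ValuationSubring Qb) (hA : A.LiesOverPrime q) :
    genusR (kk A) (FT A M) = Module.finrank ℂ (CuspForm (Gamma0 M) 2) :=
  le_antisymm (genusR_le_gS M q hqM A hA) (gS_le_genusR_j M q hqM hq5 A hA)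

/-! ## (RJ6) the regular differentials are spanned by the reductions of the cusp forms -/

/-- `ω dJ̄` is a regular differential -/
def IsRegJ (A : ValuationSubring Qb) (M : ℕ) [NeZero M] (ω : FT A M) : Prop :=
  (∀ (Q : Place (kk A) (FT A M)) (c : kk A), 0 < Q.ord (jT A M - algebraMap (kk A) (FT A M) c) →
    D2_ge Q (1 - Q.ord (jT A M - algebraMap (kk A) (FT A M) c)) ω) ∧
  (∀ Q : Place (kk A) (FT A M), Q.ord (jT A M) < 0 → D2_ge Q (1 - Q.ord (jT A M)) ω)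

/-- criterion: bounds on `ω⁶ j̄⁴ (j̄ - 1728)³` -/
theorem isRegJ_of_bounds (A : ValuationSubring Qb) (M : ℕ) [NeZero M] {q : ℕ} [Fact q.Prime]
    (hA : A.LiesOverPrime q) (hq5 : 5 ≤ q) (ω y : FT A M)
    (hy : ω ^ 6 * (jT A M ^ 4 * (jT A M - 1728) ^ 3) = y)
    (h0 : ∀ Q : Place (kk A) (FT A M), 0 ≤ Q.ord (jT A M) → D2_ge Q 0 y)
    (h1 : ∀ Q : Place (kk A) (FT A M), Q.ord (jT A M) < 0 → D2_ge Q (1 + Q.ord (jT A M)) y) :
    IsRegJ A M ω :=
  RJ_hfin_hinf (jT A M) ω y (RJ_1728_ne A hA hq5) (by rw [map_ofNat]; exact hy) h0 h1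

set_option maxHeartbeats 1000000 in
/-- a basis of reductions of cusp forms (times `1 / θ(j)`) -/
theorem exists_regular_basis_j (M q : ℕ) [NeZero M] [NeZero q] [hqF : Fact q.Prime]
    (hqM : ¬ q ∣ M) (hq5 : 5 ≤ q) (A : ValuationSubring Qb) (hA : A.LiesOverPrime q) :
    ∃ b : Fin (Module.finrank ℂ (CuspForm (Gamma0 M) 2)) → OC M hqM A hA,
      LinearIndependent (kk A) (fun i => redC M hqM A hA (b i)) ∧
      (∀ i, ∃ (f : CuspForm (Gamma0 M) 2) (φ : PowerSeries Qb), qExpansion 1 f = φ.map iotaC ∧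
        (((b i : OC M hqM A hA) : FB M) : LaurentSeries Qb) =
          HahnSeries.ofPowerSeries ℤ Qb φ * uJ) ∧
      ∀ i, IsRegJ A M (redC M hqM A hA (b i)) := by
  have hk := isAlgClosed_kk A
  have hFt := isFF_FT A M
  have hF := isFF_bar M
  have hM : 1 ≤ M := Nat.one_le_iff_ne_zero.mpr (NeZero.ne M)
  obtain ⟨xj, hxj, hr⟩ := RJ_exists_j M q hqM A hA
  obtain ⟨U, hUfd, hUrank, hU⟩ := exists_cuspSpace M uJ uJ_ne (uJ_mem M)
  have horth := (RM M q hqM A hA).exists_orth U hUfd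
  rw [hUrank] at horth
  obtain ⟨b, hbU, hbind⟩ := horth
  refine ⟨b, hbind, fun i => hU _ (hbU i), fun i => ?_⟩
  set y : (RM M q hqM A hA).O := (b i) ^ 6 * (xj ^ 4 * (xj - 1728) ^ 3) with hy
  have hyF : ((y : (RM M q hqM A hA).O) : FB M) = ((b i : (RM M q hqM A hA).O) : FB M) ^ 6 *
      (jBar M ^ 4 * (jBar M - 1728) ^ 3) := by
    rw [hy, ← hxj]; push_cast; rfl
  obtain ⟨f, φ, hφ, hbφ⟩ := hU _ (hbU i)
  obtain ⟨h1, h2⟩ := rj_mem_L M _ f φ hφ hbφ
  rw [← hyF, ← hxj] at h1 h2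
  have h3 := red_ge_of_pow_mem hF hFt (RM M q hqM A hA) xj
    (by rw [hr]; exact transcendental_jT A M)
    (by
      rw [hr, hxj, finrank_eq_index M]
      exact idx_le_finrank_FT M hqM A hA) y M hM h1 h2
  rw [hr] at h3
  refine isRegJ_of_bounds A M hA hq5 _ ((RM M q hqM A hA).red y) ?_
    (fun Q => (h3 Q).1) (fun Q => (h3 Q).2)
  rw [hy, map_mul, map_pow, map_mul, map_pow, map_pow, map_sub, hr, map_ofNat]
  rfl

/-- **(RJ6)** a regular differential is a combination of reductions of cusp forms -/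
theorem mem_span_of_isRegJ (M q : ℕ) [NeZero M] [NeZero q] [hqF : Fact q.Prime]
    (hqM : ¬ q ∣ M) (A : ValuationSubring Qb) (hA : A.LiesOverPrime q)
    (b : Fin (Module.finrank ℂ (CuspForm (Gamma0 M) 2)) → FT A M)
    (hb : LinearIndependent (kk A) b) (hreg : ∀ i, IsRegJ A M (b i))
    (ω : FT A M) (hω : IsRegJ A M ω) : ω ∈ Submodule.span (kk A) (Set.range b) := by
  have hk := isAlgClosed_kk A
  have hFt := isFF_FT A M
  by_contra hcon
  obtain ⟨htt, hsep⟩ := ru_sep (FT A M) hFt (jT A M) (coeff_jqModC_neg_one (kk A))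
  have hli : LinearIndependent (kk A) (Fin.cons ω b : Fin (_ + 1) → FT A M) :=
    (linearIndependent_finCons).2 ⟨hb, hcon⟩
  obtain ⟨E, -, hE⟩ := FFLib.exists_ell_le_of_differentials hFt htt
    (Fin.cons ω b : Fin (_ + 1) → FT A M) hli
    (fun i => by
      refine Fin.cases ?_ (fun i => ?_) i
      · exact hω.1
      · exact (hreg i).1)
    (fun i => by
      refine Fin.cases ?_ (fun i => ?_) i
      · exact hω.2
      · exact (hreg i).2) 0
  have h1 := riemann_inequality hFt E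
  have h2 : (genusR (kk A) (FT A M) : ℤ) ≤ (Module.finrank ℂ (CuspForm (Gamma0 M) 2) : ℤ) := by
    exact_mod_cast genusR_le_gS M q hqM A hA
  push_cast at hE
  omega

end

end Fermat.Agent.S40Lib
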